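/-
Stage 3c, package S31-BURN: a two-dimensional representation over a local ring whose residual
representation is absolutely irreducible is determined by its trace in the following sense: if
`trace (ρ (g * σ)) = trace (ρ g)` for all `g`, then `ρ σ = 1`.
-/
import Mathlib
import Fermat.Prelude.Def_GaloisRep_Adic

set_option autoImplicit false

open Matrix
open scoped TensorProduct

namespace Fermat.Agent.S31

/-! ### two by two matrices over a field -/

section comm

variable {R : Type*} [CommRing R]

/-- `z y z = tr(y z) z - det(z) adj(y)` for two by two matrices. -/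
theorem brn_mul_mul (z y : Matrix (Fin 2) (Fin 2) R) :
    z * y * z = (y * z).trace • z - z.det • y.adjugate := by
  ext i j
  fin_cases i <;> fin_cases j <;>
    simp [Matrix.mul_apply, Fin.sum_univ_two, Matrix.trace, Matrix.det_fin_two,
      Matrix.adjugate_fin_two] <;> ring

theorem brn_trace_single_mul (a b : Fin 2) (X : Matrix (Fin 2) (Fin 2) R) :
    (Matrix.single a b (1 : R) * X).trace = X b a := by
  fin_cases a <;> fin_cases b <;>
    simp [Matrix.trace, Matrix.mul_apply, Fin.sum_univ_two, Matrix.single_apply]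

end comm

section field

variable {K : Type*} [Field K]

/-- The kernel of a nonzero two by two matrix is at most a line. -/
theorem brn_ker_line (z : Matrix (Fin 2) (Fin 2) K) (hz : z ≠ 0) (w w' : Fin 2 → K)
    (hw : w ≠ 0) (h1 : z *ᵥ w = 0) (h2 : z *ᵥ w' = 0) : ∃ c : K, w' = c • w := by
  have e1 : ∀ i, z i 0 * w 0 + z i 1 * w 1 = 0 := fun i => by
    have := congrFun h1 i
    simpa [Matrix.mulVec, dotProduct, Fin.sum_univ_two] using this
  have e2 : ∀ i, z i 0 * w' 0 + z i 1 * w' 1 = 0 := fun i => by
    have := congrFun h2 i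
    simpa [Matrix.mulVec, dotProduct, Fin.sum_univ_two] using this
  have hd : w 0 * w' 1 - w 1 * w' 0 = 0 := by
    by_contra hd
    apply hz
    ext i j
    have a0 : z i 0 * (w 0 * w' 1 - w 1 * w' 0) = 0 := by
      linear_combination w' 1 * e1 i - w 1 * e2 i
    have a1 : z i 1 * (w 0 * w' 1 - w 1 * w' 0) = 0 := by
      linear_combination w 0 * e2 i - w' 0 * e1 i
    fin_cases j
    · exact (mul_eq_zero.mp a0).resolve_right hd
    · exact (mul_eq_zero.mp a1).resolve_right hd
  by_cases h0 : w 0 = 0
  · have h1' : w 1 ≠ 0 := by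
      intro h1'
      apply hw
      funext i
      fin_cases i
      · exact h0
      · exact h1'
    refine ⟨w' 1 / w 1, ?_⟩
    funext i
    fin_cases i
    · show w' 0 = w' 1 / w 1 * w 0
      rw [h0, mul_zero]
      rw [h0, zero_mul, zero_sub, neg_eq_zero] at hd
      exact (mul_eq_zero.mp hd).resolve_left h1'
    · show w' 1 = w' 1 / w 1 * w 1
      field_simp
  · refine ⟨w' 0 / w 0, ?_⟩
    funext i
    fin_cases i
    · show w' 0 = w' 0 / w 0 * w 0
      field_simp
    · show w' 1 = w' 0 / w 0 * w 1
      field_simp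
      linear_combination hd

/-- A singular matrix orthogonal to an irreducible family is zero. -/
theorem brn_singular {G : Type*} [Monoid G] (M : G →* Matrix (Fin 2) (Fin 2) K)
    (hirr : ∀ w : Fin 2 → K, w ≠ 0 → ∃ g, ∀ c : K, M g *ᵥ w ≠ c • w)
    (z : Matrix (Fin 2) (Fin 2) K) (hz : ∀ g, (M g * z).trace = 0) (hdet : z.det = 0) :
    z = 0 := by
  by_contra hz0
  have h1 : ∀ g, z * M g * z = 0 := fun g => by
    rw [brn_mul_mul, hz g, hdet, zero_smul, zero_smul, sub_zero]
  obtain ⟨v, hv⟩ : ∃ v : Fin 2 → K, z *ᵥ v ≠ 0 := by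
    by_contra hcon
    push Not at hcon
    apply hz0
    ext i j
    have := congrFun (hcon (Pi.single j 1)) i
    simpa using this
  obtain ⟨g, hg⟩ := hirr (z *ᵥ v) hv
  have hw1 : z *ᵥ (z *ᵥ v) = 0 := by
    have := h1 1
    rw [map_one, mul_one] at this
    rw [Matrix.mulVec_mulVec, this, Matrix.zero_mulVec]
  have hw2 : z *ᵥ (M g *ᵥ (z *ᵥ v)) = 0 := by
    rw [Matrix.mulVec_mulVec, Matrix.mulVec_mulVec, h1 g, Matrix.zero_mulVec]
  obtain ⟨c, hc⟩ := brn_ker_line z hz0 (z *ᵥ v) (M g *ᵥ (z *ᵥ v)) hv hw1 hw2
  exact hg c hc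

/-- Burnside in dimension two, dual form: a matrix orthogonal (for the trace form) to an
irreducible family over an algebraically closed field is zero. -/
theorem brn_star [IsAlgClosed K] {G : Type*} [Monoid G] (M : G →* Matrix (Fin 2) (Fin 2) K)
    (hirr : ∀ w : Fin 2 → K, w ≠ 0 → ∃ g, ∀ c : K, M g *ᵥ w ≠ c • w)
    (z : Matrix (Fin 2) (Fin 2) K) (hz : ∀ g, (M g * z).trace = 0) : z = 0 := by
  by_cases hdet : z.det = 0
  · exact brn_singular M hirr z hz hdet
  exfalso
  obtain ⟨h, hh⟩ : ∃ h, ∀ c : K, M h ≠ c • (1 : Matrix (Fin 2) (Fin 2) K) := by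
    by_contra hcon
    push Not at hcon
    have hne : (Pi.single 0 1 : Fin 2 → K) ≠ 0 := by
      intro h0
      have := congrFun h0 0
      simp at this
    obtain ⟨g, hg⟩ := hirr (Pi.single 0 1) hne
    obtain ⟨c, hc⟩ := hcon g
    exact hg c (by rw [hc, Matrix.smul_mulVec, Matrix.one_mulVec])
  obtain ⟨t, ht⟩ : ∃ t : K, t * t - (M h).trace * t + (M h).det = 0 := by
    have hdeg : (Polynomial.C (1 : K) * Polynomial.X ^ 2 + Polynomial.C (-(M h).trace) *
        Polynomial.X + Polynomial.C (M h).det).degree ≠ 0 := by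
      rw [Polynomial.degree_quadratic one_ne_zero]
      norm_num
    obtain ⟨t, ht⟩ := IsAlgClosed.exists_root _ hdeg
    refine ⟨t, ?_⟩
    have := ht
    simp only [Polynomial.IsRoot, Polynomial.eval_add, Polynomial.eval_mul, Polynomial.eval_C,
      Polynomial.eval_pow, Polynomial.eval_X] at this
    linear_combination this
  have hz' : ∀ g, (M g * ((M h - t • 1) * z)).trace = 0 := by
    intro g
    have e : M g * ((M h - t • 1) * z) = M (g * h) * z - t • (M g * z) := by
      rw [map_mul, sub_mul, mul_sub, Matrix.smul_mul, Matrix.one_mul, Matrix.mul_smul, mul_assoc]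
    rw [e, Matrix.trace_sub, Matrix.trace_smul, hz, hz, smul_zero, sub_zero]
  have hdet' : ((M h - t • 1) * z).det = 0 := by
    rw [Matrix.det_mul]
    have : (M h - t • (1 : Matrix (Fin 2) (Fin 2) K)).det = 0 := by
      rw [Matrix.det_fin_two]
      rw [Matrix.trace_fin_two, Matrix.det_fin_two] at ht
      simp only [Matrix.sub_apply, Matrix.smul_apply, Matrix.one_apply_eq, smul_eq_mul, mul_one,
        Matrix.one_apply_ne (show (0 : Fin 2) ≠ 1 by decide),
        Matrix.one_apply_ne (show (1 : Fin 2) ≠ 0 by decide), mul_zero, sub_zero]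
      linear_combination ht
    rw [this, zero_mul]
  have h0 := brn_singular M hirr _ hz' hdet'
  have hy : M h - t • 1 = 0 := by
    have hu : IsUnit z.det := isUnit_iff_ne_zero.mpr hdet
    have := congrArg (· * z⁻¹) h0
    simpa [mul_assoc, Matrix.mul_nonsing_inv _ hu] using this
  exact hh t (sub_eq_zero.mp hy)

end field

/-! ### descent to a subfield and the span -/

section descent

variable {k K : Type*} [Field k] [Field K] [IsAlgClosed K]

/-- The dual form of Burnside for a family over `k` which is irreducible over an algebraically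
closed extension `K`. -/
theorem brn_star_map (φ : k →+* K) {G : Type*} [Monoid G] (M : G →* Matrix (Fin 2) (Fin 2) k)
    (hirr : ∀ w : Fin 2 → K, w ≠ 0 → ∃ g, ∀ c : K, (M g).map φ *ᵥ w ≠ c • w)
    (z : Matrix (Fin 2) (Fin 2) k) (hz : ∀ g, (M g * z).trace = 0) : z = 0 := by
  have h := brn_star ((φ.mapMatrix : Matrix (Fin 2) (Fin 2) k →+* _).toMonoidHom.comp M) hirr
    (z.map φ) (fun g => by
      show ((M g).map φ * z.map φ).trace = 0
      rw [← Matrix.map_mul]
      have := AddMonoidHom.map_trace φ.toAddMonoidHom (M g * z)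
      rw [hz g, map_zero] at this
      exact this.symm)
  ext i j
  have := congrFun (congrFun h i) j
  simpa using this

/-- Burnside in dimension two: the matrices of an absolutely irreducible family span all
matrices. -/
theorem brn_span_top (φ : k →+* K) {G : Type*} [Monoid G] (M : G →* Matrix (Fin 2) (Fin 2) k)
    (hirr : ∀ w : Fin 2 → K, w ≠ 0 → ∃ g, ∀ c : K, (M g).map φ *ᵥ w ≠ c • w) :
    Submodule.span k (Set.range M) = ⊤ := by
  by_contra hne
  obtain ⟨f, hf0, hf⟩ := Submodule.exists_le_ker_of_lt_top _ (lt_top_iff_ne_top.mpr hne)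
  let z : Matrix (Fin 2) (Fin 2) k := Matrix.of fun i j => f (Matrix.single j i 1)
  have key : ∀ b : Matrix (Fin 2) (Fin 2) k, (b * z).trace = f b := by
    intro b
    have hb : b = b 0 0 • Matrix.single 0 0 (1 : k) + b 0 1 • Matrix.single 0 1 (1 : k) +
        b 1 0 • Matrix.single 1 0 (1 : k) + b 1 1 • Matrix.single 1 1 (1 : k) := by
      ext i j
      fin_cases i <;> fin_cases j <;> simp
    conv_rhs => rw [hb]
    simp only [map_add, map_smul, smul_eq_mul]
    simp only [Matrix.trace, Matrix.diag_apply, Matrix.mul_apply, Fin.sum_univ_two, z,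
      Matrix.of_apply]
    ring
  have hz : z = 0 := brn_star_map φ M hirr z (fun g => by
    rw [key]
    exact hf (Submodule.subset_span ⟨g, rfl⟩))
  apply hf0
  refine LinearMap.ext fun b => ?_
  rw [← key, hz, mul_zero, Matrix.trace_zero, LinearMap.zero_apply]

end descent

/-! ### local rings -/

section localRing

variable {T : Type*} [CommRing T] [IsLocalRing T]

/-- The main lemma for matrices over a local ring: if the residual family is absolutely
irreducible, then a matrix orthogonal to the family for the trace form is zero. -/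
theorem brn_local {K : Type*} [Field K] [IsAlgClosed K] (φ : IsLocalRing.ResidueField T →+* K)
    {G : Type*} [Monoid G] (M : G →* Matrix (Fin 2) (Fin 2) T)
    (hirr : ∀ w : Fin 2 → K, w ≠ 0 → ∃ g, ∀ c : K,
      ((M g).map (IsLocalRing.residue T)).map φ *ᵥ w ≠ c • w)
    (X : Matrix (Fin 2) (Fin 2) T) (hX : ∀ g, (M g * X).trace = 0) : X = 0 := by
  set r : T →+* IsLocalRing.ResidueField T := IsLocalRing.residue T with hr
  set Mk : G →* Matrix (Fin 2) (Fin 2) (IsLocalRing.ResidueField T) :=
    (r.mapMatrix : Matrix (Fin 2) (Fin 2) T →+* _).toMonoidHom.comp M with hMk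
  have hspan : Submodule.span (IsLocalRing.ResidueField T) (Set.range Mk) = ⊤ :=
    brn_span_top φ Mk hirr
  -- every matrix over the residue field lifts to a matrix orthogonal to `X`
  have hlift : ∀ Y : Matrix (Fin 2) (Fin 2) (IsLocalRing.ResidueField T),
      ∃ b : Matrix (Fin 2) (Fin 2) T, (b * X).trace = 0 ∧ b.map r = Y := by
    intro Y
    have hY : Y ∈ Submodule.span (IsLocalRing.ResidueField T) (Set.range Mk) := by
      rw [hspan]
      exact Submodule.mem_top
    induction hY using Submodule.span_induction with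
    | mem y hy =>
      obtain ⟨g, rfl⟩ := hy
      exact ⟨M g, hX g, rfl⟩
    | zero => exact ⟨0, by simp, by simp⟩
    | add y₁ y₂ _ _ h₁ h₂ =>
      obtain ⟨b₁, hb₁, rfl⟩ := h₁
      obtain ⟨b₂, hb₂, rfl⟩ := h₂
      refine ⟨b₁ + b₂, by rw [add_mul, Matrix.trace_add, hb₁, hb₂, add_zero], ?_⟩
      ext i j
      simp
    | smul c y _ h₁ =>
      obtain ⟨b₁, hb₁, rfl⟩ := h₁
      obtain ⟨c', rfl⟩ := IsLocalRing.residue_surjective c
      refine ⟨c' • b₁, by rw [Matrix.smul_mul, Matrix.trace_smul, hb₁, smul_zero], ?_⟩
      ext i j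
      simp [hr]
  -- the ideal generated by the entries of `X`
  set I : Ideal T := Ideal.span (Set.range fun p : Fin 2 × Fin 2 => X p.1 p.2) with hI
  have hXI : ∀ u v, X u v ∈ I := fun u v => Ideal.subset_span ⟨(u, v), rfl⟩
  have hle : I ≤ IsLocalRing.maximalIdeal T • I := by
    rw [hI, Ideal.span_le]
    rintro _ ⟨⟨b', a⟩, rfl⟩
    show X b' a ∈ IsLocalRing.maximalIdeal T • I
    obtain ⟨b, hb, hbY⟩ := hlift (Matrix.single a b' 1)
    have hR : ∀ u v, (Matrix.single a b' (1 : T) - b) u v ∈ IsLocalRing.maximalIdeal T := by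
      intro u v
      rw [← IsLocalRing.residue_eq_zero_iff]
      have h1 := congrFun (congrFun hbY u) v
      rw [Matrix.map_apply] at h1
      rw [Matrix.sub_apply, map_sub, ← hr, h1]
      by_cases huv : a = u ∧ b' = v
      · rw [Matrix.single_apply, Matrix.single_apply, if_pos huv, if_pos huv, map_one, sub_self]
      · rw [Matrix.single_apply, Matrix.single_apply, if_neg huv, if_neg huv, map_zero, sub_self]
    have hsplit : X b' a = ((Matrix.single a b' (1 : T) - b) * X).trace := by
      rw [sub_mul, Matrix.trace_sub, hb, sub_zero, brn_trace_single_mul]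
    rw [hsplit]
    simp only [Matrix.trace, Matrix.diag_apply, Matrix.mul_apply]
    refine Ideal.sum_mem _ fun u _ => Ideal.sum_mem _ fun v _ => ?_
    rw [smul_eq_mul]
    exact Ideal.mul_mem_mul (hR u v) (hXI v u)
  have hfg : (I : Submodule T T).FG := by
    rw [hI]
    exact Submodule.fg_span (Set.finite_range _)
  have hbot : I = ⊥ := Submodule.eq_bot_of_le_smul_of_le_jacobson_bot
    (IsLocalRing.maximalIdeal T) I hfg hle (IsLocalRing.maximalIdeal_le_jacobson ⊥)
  ext u v
  have := hXI u v
  rw [hbot] at this
  simpa using this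

end localRing

/-! ### modules and Galois representations -/

section module

variable {T : Type*} [CommRing T] [IsLocalRing T]

/-- The main theorem for a free module of rank two over a local ring: if the residual
representation is absolutely irreducible (no proper nonzero stable subspace after base change
to an algebraically closed extension `K` of the residue field) and `σ` satisfies
`trace (ρ (g * σ)) = trace (ρ g)` for all `g`, then `ρ σ = 1`. -/
theorem brn_module {V : Type*} [AddCommGroup V] [Module T V] [Module.Free T V]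
    [Module.Finite T V] (hV : Module.finrank T V = 2) {G : Type*} [Group G]
    (ρ : G →* Module.End T V) (K : Type*) [Field K] [IsAlgClosed K]
    [Algebra (IsLocalRing.ResidueField T) K]
    (hirr : ∀ W : Submodule K (K ⊗[IsLocalRing.ResidueField T]
        (IsLocalRing.ResidueField T ⊗[T] V)),
      (∀ g : G, ∀ x ∈ W,
        ((ρ g).baseChange (IsLocalRing.ResidueField T)).baseChange K x ∈ W) → W = ⊥ ∨ W = ⊤)
    (σ : G) (hσ : ∀ g : G, LinearMap.trace T V (ρ (g * σ)) = LinearMap.trace T V (ρ g)) :
    ρ σ = 1 := by
  classical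
  let b : Module.Basis (Fin 2) T V := Module.finBasisOfFinrankEq T V hV
  let E : Module.End T V ≃ₐ[T] Matrix (Fin 2) (Fin 2) T := LinearMap.toMatrixAlgEquiv b
  let M : G →* Matrix (Fin 2) (Fin 2) T :=
    ((E : Module.End T V →ₐ[T] Matrix (Fin 2) (Fin 2) T) :
      Module.End T V →* Matrix (Fin 2) (Fin 2) T).comp ρ
  have hM : ∀ g, M g = LinearMap.toMatrix b b (ρ g) := fun g => rfl
  have htr : ∀ g, (M g).trace = LinearMap.trace T V (ρ g) := fun g => by
    rw [hM, ← LinearMap.trace_eq_matrix_trace T b]
  let bk : Module.Basis (Fin 2) (IsLocalRing.ResidueField T) (IsLocalRing.ResidueField T ⊗[T] V) :=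
    Algebra.TensorProduct.basis (IsLocalRing.ResidueField T) b
  let bK : Module.Basis (Fin 2) K (K ⊗[IsLocalRing.ResidueField T]
      (IsLocalRing.ResidueField T ⊗[T] V)) := Algebra.TensorProduct.basis K bk
  have hMK : ∀ g, LinearMap.toMatrix bK bK
      (((ρ g).baseChange (IsLocalRing.ResidueField T)).baseChange K) =
      ((M g).map (IsLocalRing.residue T)).map (algebraMap (IsLocalRing.ResidueField T) K) := by
    intro g
    rw [LinearMap.toMatrix_baseChange, LinearMap.toMatrix_baseChange, hM]
    rfl
  have hfin : Module.finrank K (K ⊗[IsLocalRing.ResidueField T]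
      (IsLocalRing.ResidueField T ⊗[T] V)) = 2 := by
    rw [Module.finrank_eq_card_basis bK, Fintype.card_fin]
  have key : M σ - 1 = 0 := by
    refine brn_local (algebraMap (IsLocalRing.ResidueField T) K) M ?_ (M σ - 1) ?_
    · intro w hw
      by_contra hcon
      push Not at hcon
      choose c hc using hcon
      set v := bK.equivFun.symm w with hv
      have hvw : bK.repr v = Finsupp.equivFunOnFinite.symm w := by
        apply Finsupp.equivFunOnFinite.injective
        rw [Equiv.apply_symm_apply]
        have := bK.equivFun.apply_symm_apply w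
        rw [← hv] at this
        exact this
      have hv0 : v ≠ 0 := by
        intro h0
        apply hw
        have := bK.equivFun.apply_symm_apply w
        rw [← hv, h0, map_zero] at this
        exact this.symm
      have hstab : ∀ g, (((ρ g).baseChange (IsLocalRing.ResidueField T)).baseChange K) v =
          c g • v := by
        intro g
        apply bK.equivFun.injective
        have h1 := LinearMap.toMatrix_mulVec_repr bK bK
          (((ρ g).baseChange (IsLocalRing.ResidueField T)).baseChange K) v
        rw [hMK g] at h1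
        have h2 : (bK.repr v : Fin 2 → K) = w := by
          rw [hvw]
          rfl
        rw [h2, hc g] at h1
        rw [map_smul]
        have h3 : bK.equivFun v = w := by
          rw [hv, LinearEquiv.apply_symm_apply]
        rw [h3]
        exact h1.symm
      rcases hirr (K ∙ v) (fun g x hx => by
        obtain ⟨a, rfl⟩ := Submodule.mem_span_singleton.mp hx
        rw [map_smul, hstab g]
        exact Submodule.smul_mem _ _ (Submodule.smul_mem _ _ (Submodule.mem_span_singleton_self v)))
        with h | h
      · exact hv0 ((Submodule.span_singleton_eq_bot).mp h)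
      · have h1 := finrank_span_singleton (K := K) hv0
        rw [h, finrank_top, hfin] at h1
        norm_num at h1
    · intro g
      rw [mul_sub, mul_one, Matrix.trace_sub, ← map_mul, htr, htr, hσ g, sub_self]
  have h1 : E (ρ σ) = E 1 := by
    rw [map_one]
    exact sub_eq_zero.mp key
  exact E.injective h1

end module

section galois

/-- S31-BURN in the shape of the frozen statement: for a two-dimensional adic Galois
representation over a local ring with absolutely irreducible residual representation, an
element `σ` with `trace (ρ (g * σ)) = trace (ρ g)` for all `g` acts trivially. -/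
theorem brn_main {T : Type} [CommRing T] [IsLocalRing T] (ρ : GaloisRepAdic T)
    (hirr : ρ.residual.IsAbsolutelyIrreducible)
    (σ : AlgebraicClosure ℚ ≃ₐ[ℚ] AlgebraicClosure ℚ)
    (hσ : ∀ g : AlgebraicClosure ℚ ≃ₐ[ℚ] AlgebraicClosure ℚ,
      LinearMap.trace T ρ.V (ρ.ρ (g * σ)) = LinearMap.trace T ρ.V (ρ.ρ g)) :
    ρ.ρ σ = 1 :=
  brn_module ρ.finrank_eq ρ.ρ (AlgebraicClosure (IsLocalRing.ResidueField T)) hirr σ hσ

/-- The same with the Prelude's `GaloisRepAdic.trace`. -/
theorem brn_main' {T : Type} [CommRing T] [IsLocalRing T] (ρ : GaloisRepAdic T)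
    (hirr : ρ.residual.IsAbsolutelyIrreducible)
    (σ : AlgebraicClosure ℚ ≃ₐ[ℚ] AlgebraicClosure ℚ)
    (hσ : ∀ g : AlgebraicClosure ℚ ≃ₐ[ℚ] AlgebraicClosure ℚ, ρ.trace (g * σ) = ρ.trace g) :
    ρ.ρ σ = 1 :=
  brn_main ρ hirr σ hσ

end galois

end Fermat.Agent.S31
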