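/-
Stage 3c (S31), package HECKERES, abstract half (Mathlib only).

A noncommutative polynomial `P` in operators `t i` acting naturally on `Hom(G, A)` (`G` a finitely
generated group) which kills, modulo `p ^ n`, every homomorphism vanishing on a set `Z`, is on the
complex-valued homomorphisms vanishing on `Z` of the form `p ^ (n - v) • Q`, with `v` independent
of `n` and `P`.
-/
import Mathlib

set_option autoImplicit false
set_option linter.style.haveILetI false

namespace Fermat.Agent.S31

/-- In a noetherian `ℤ`-module, the saturation of a submodule with respect to `p` is reached at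
a finite stage. -/
theorem hres_chain {E : Type*} [AddCommGroup E] [IsNoetherian ℤ E] (R : Submodule ℤ E) (p : ℕ) :
    ∃ v : ℕ, ∀ n : ℕ, v ≤ n → ∀ e : E, ((p : ℤ) ^ n) • e ∈ R → ((p : ℤ) ^ v) • e ∈ R := by
  let f : ℕ →o Submodule ℤ E :=
    { toFun := fun k =>
        { carrier := {e | ((p : ℤ) ^ k) • e ∈ R}
          add_mem' := fun {a b} ha hb => by
            simp only [Set.mem_ofPred_eq, smul_add] at *
            exact R.add_mem ha hb
          zero_mem' := by simp
          smul_mem' := fun c a ha => by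
            simp only [Set.mem_ofPred_eq] at *
            rw [smul_comm]
            exact R.smul_mem c ha }
      monotone' := fun k k' hkk' e he => by
        show ((p : ℤ) ^ k') • e ∈ R
        have he' : ((p : ℤ) ^ k) • e ∈ R := he
        obtain ⟨d, rfl⟩ := Nat.exists_eq_add_of_le hkk'
        rw [pow_add, mul_comm, mul_smul]
        exact R.smul_mem _ he' }
  obtain ⟨v, hv⟩ := monotone_stabilizes_iff_noetherian.mpr (inferInstance : IsNoetherian ℤ E) f
  refine ⟨v, fun n hn e he => ?_⟩
  have h1 : e ∈ f n := he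
  rw [← hv n hn] at h1
  exact h1

/-- division of an integer-valued homomorphism by an integer dividing all its values -/
theorem hres_div {G : Type*} [AddGroup G] (ν : G →+ ℤ) (m : ℤ)
    (h : ∀ g, m ∣ ν g) : ∃ μ : G →+ ℤ, ν = m • μ := by
  refine ⟨{ toFun := fun g => ν g / m
            map_zero' := by simp
            map_add' := fun a b => by
              rw [map_add, Int.add_ediv_of_dvd_left (h a)] }, ?_⟩
  ext g
  simp only [AddMonoidHom.smul_apply, AddMonoidHom.coe_mk, ZeroHom.coe_mk, smul_eq_mul]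
  exact (Int.mul_ediv_cancel' (h g)).symm

/-- the integer-valued homomorphisms on a finitely generated group form a noetherian module -/
theorem hres_noetherian (G : Type*) [AddGroup G] [AddGroup.FG G] : IsNoetherian ℤ (G →+ ℤ) := by
  obtain ⟨S, hS, hSfin⟩ := AddGroup.fg_iff.mp (inferInstance : AddGroup.FG G)
  haveI : Finite S := hSfin.to_subtype
  let ev : (G →+ ℤ) →ₗ[ℤ] (S → ℤ) :=
    { toFun := fun l s => l s.1
      map_add' := fun _ _ => rfl
      map_smul' := fun _ _ => rfl }
  refine isNoetherian_of_injective ev ?_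
  intro a b hab
  refine AddMonoidHom.eq_of_eqOn_dense hS ?_
  intro s hs
  exact congrFun hab ⟨s, hs⟩

section Eval

variable {G : Type} [AddGroup G] {I : Type}
variable (t : ∀ (A : Type) [AddCommGroup A], I → (G →+ A) →+ (G →+ A))

/-- evaluation of a noncommutative polynomial at the operators `t A i` on `Hom(G, A)` -/
noncomputable def hresEv (A : Type) [AddCommGroup A] :
    FreeAlgebra ℤ I →ₐ[ℤ] Module.End ℤ (G →+ A) :=
  FreeAlgebra.lift ℤ (fun i => (t A i).toIntLinearMap)

theorem hresEv_ι (A : Type) [AddCommGroup A] (i : I) (ψ : G →+ A) :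
    hresEv t A (FreeAlgebra.ι ℤ i) ψ = t A i ψ := by
  simp [hresEv]

theorem hres_comp_zsmul {A B : Type} [AddCommGroup A] [AddCommGroup B] (φ : A →+ B) (c : ℤ)
    (ψ : G →+ A) : φ.comp (c • ψ) = c • φ.comp ψ := by
  ext g
  simp

variable {t}

/-- naturality of the evaluation in the coefficient group -/
theorem hresEv_nat
    (hnat : ∀ (A B : Type) [AddCommGroup A] [AddCommGroup B] (φ : A →+ B) (i : I) (ψ : G →+ A),
      t B i (φ.comp ψ) = φ.comp (t A i ψ))
    {A B : Type} [AddCommGroup A] [AddCommGroup B] (φ : A →+ B) (P : FreeAlgebra ℤ I) :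
    ∀ ψ : G →+ A, hresEv t B P (φ.comp ψ) = φ.comp (hresEv t A P ψ) := by
  refine FreeAlgebra.induction ℤ I ?_ ?_ ?_ ?_ P
  · intro r ψ
    rw [AlgHom.commutes, AlgHom.commutes, Algebra.algebraMap_eq_smul_one,
      Algebra.algebraMap_eq_smul_one, LinearMap.smul_apply, LinearMap.smul_apply,
      Module.End.one_apply, Module.End.one_apply, hres_comp_zsmul]
  · intro i ψ
    rw [hresEv_ι, hresEv_ι, hnat]
  · intro a b ha hb ψ
    rw [map_mul, map_mul, Module.End.mul_apply, Module.End.mul_apply, hb, ha]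
  · intro a b ha hb ψ
    rw [map_add, map_add, LinearMap.add_apply, LinearMap.add_apply, ha, hb, AddMonoidHom.comp_add]

end Eval

/-- **HECKERES, abstract form.** -/
theorem hres_abs {G : Type} [AddGroup G] [AddGroup.FG G] (Z : Set G) {I : Type}
    (t : ∀ (A : Type) [AddCommGroup A], I → (G →+ A) →+ (G →+ A))
    (hnat : ∀ (A B : Type) [AddCommGroup A] [AddCommGroup B] (φ : A →+ B) (i : I) (ψ : G →+ A),
      t B i (φ.comp ψ) = φ.comp (t A i ψ))
    (p : ℕ) :
    ∃ v : ℕ, ∀ n : ℕ, v ≤ n → ∀ P : FreeAlgebra ℤ I,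
      (∀ χ : G →+ ZMod (p ^ n), (∀ s ∈ Z, χ s = 0) → hresEv t (ZMod (p ^ n)) P χ = 0) →
      ∃ Q : FreeAlgebra ℤ I, ∀ ψ : G →+ ℂ, (∀ s ∈ Z, ψ s = 0) →
        hresEv t ℂ P ψ = ((p : ℤ) ^ (n - v)) • hresEv t ℂ Q ψ := by
  classical
  haveI : IsNoetherian ℤ (G →+ ℤ) := hres_noetherian G
  -- the lattice of integral homomorphisms killing `Z`
  let Lam : Submodule ℤ (G →+ ℤ) :=
    { carrier := {l | ∀ s ∈ Z, l s = 0}
      add_mem' := fun {a b} ha hb s hs => by
        rw [AddMonoidHom.add_apply, ha s hs, hb s hs, add_zero]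
      zero_mem' := fun s _ => rfl
      smul_mem' := fun c a ha s hs => by
        rw [AddMonoidHom.smul_apply, ha s hs, smul_zero] }
  obtain ⟨gens, hgens⟩ : Lam.FG := IsNoetherian.noetherian Lam
  let Ψ : FreeAlgebra ℤ I →ₗ[ℤ] ({x // x ∈ gens} → (G →+ ℤ)) :=
    { toFun := fun P l => hresEv t ℤ P l.1
      map_add' := fun P Q => by
        funext l
        simp
      map_smul' := fun c P => by
        funext l
        simp }
  obtain ⟨v, hv⟩ := hres_chain (LinearMap.range Ψ) p
  refine ⟨v, fun n hn P hP => ?_⟩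
  -- `P` maps the lattice into `p ^ n` times the integral homomorphisms
  have hdiv : ∀ l : {x // x ∈ gens}, ∃ μ : G →+ ℤ,
      hresEv t ℤ P l.1 = ((p : ℤ) ^ n) • μ := by
    intro l
    have hl : l.1 ∈ Lam := by
      rw [← hgens]
      exact Submodule.subset_span (Finset.mem_coe.mpr l.2)
    refine hres_div _ _ fun g => ?_
    have h1 := hP ((Int.castAddHom (ZMod (p ^ n))).comp l.1) (fun s hs => by
      rw [AddMonoidHom.comp_apply, hl s hs, map_zero])
    rw [hresEv_nat hnat] at h1
    have h2 := DFunLike.congr_fun h1 g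
    rw [AddMonoidHom.comp_apply, AddMonoidHom.zero_apply, Int.coe_castAddHom,
      ZMod.intCast_zmod_eq_zero_iff_dvd] at h2
    exact_mod_cast h2
  choose e he using hdiv
  have hΨP : Ψ P = ((p : ℤ) ^ n) • e := by
    funext l
    exact he l
  obtain ⟨Q, hQ⟩ := hv n hn e (by rw [← hΨP]; exact ⟨P, rfl⟩)
  refine ⟨Q, ?_⟩
  -- the identity on the lattice
  have hLam : ∀ l ∈ Lam, hresEv t ℤ P l = ((p : ℤ) ^ (n - v)) • hresEv t ℤ Q l := by
    intro l hl
    rw [← hgens] at hl
    refine Submodule.span_induction ?_ ?_ ?_ ?_ hl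
    · intro x hx
      have h1 : hresEv t ℤ P x = ((p : ℤ) ^ n) • e ⟨x, hx⟩ := he ⟨x, hx⟩
      have h2 : hresEv t ℤ Q x = ((p : ℤ) ^ v) • e ⟨x, hx⟩ := congrFun hQ ⟨x, hx⟩
      rw [h1, h2, smul_smul, ← pow_add, Nat.sub_add_cancel hn]
    · simp
    · intro x y _ _ hx hy
      rw [map_add, map_add, hx, hy, smul_add]
    · intro c x _ hx
      rw [map_smul, map_smul, hx, smul_comm]
  intro ψ hψ
  -- decompose `ψ` along a basis of its (finitely generated, torsion-free) group of values
  haveI : Module.Finite ℤ ψ.range := Module.Finite.iff_addGroup_fg.mpr (AddGroup.fg_range ψ)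
  haveI : Module.Free ℤ ψ.range := Module.free_of_finite_type_torsion_free'
  let b := Module.finBasis ℤ ψ.range
  let lam : Fin (Module.finrank ℤ ψ.range) → (G →+ ℤ) := fun j =>
    ((b.coord j : ψ.range →ₗ[ℤ] ℤ).toAddMonoidHom).comp ψ.rangeRestrict
  let φ : Fin (Module.finrank ℤ ψ.range) → (ℤ →+ ℂ) := fun j =>
    zmultiplesHom ℂ ((b j : ψ.range) : ℂ)
  have hlam : ∀ j, lam j ∈ Lam := by
    intro j s hs
    have h0 : ψ.rangeRestrict s = 0 := Subtype.ext (hψ s hs)
    show (b.coord j) (ψ.rangeRestrict s) = 0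
    rw [h0, map_zero]
  have hdec : ψ = ∑ j, (φ j).comp (lam j) := by
    ext g
    rw [AddMonoidHom.finsetSum_apply]
    have h1 := congrArg (Subtype.val) (b.sum_repr (ψ.rangeRestrict g))
    rw [AddSubgroup.val_finsetSum] at h1
    rw [show ψ g = ((ψ.rangeRestrict g : ψ.range) : ℂ) from rfl, ← h1]
    refine Finset.sum_congr rfl fun j _ => ?_
    simp [φ, lam, Module.Basis.coord_apply]
  have hkey : ∀ R : FreeAlgebra ℤ I,
      hresEv t ℂ R ψ = ∑ j, (φ j).comp (hresEv t ℤ R (lam j)) := by
    intro R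
    conv_lhs => rw [hdec]
    rw [map_sum]
    exact Finset.sum_congr rfl fun j _ => hresEv_nat hnat (φ j) R (lam j)
  rw [hkey P, hkey Q, Finset.smul_sum]
  refine Finset.sum_congr rfl fun j _ => ?_
  rw [hLam _ (hlam j), hres_comp_zsmul]

end Fermat.Agent.S31
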