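/-
Stage 3c (S31), package HECKERES: Hecke transfer.

There is `v` (depending on `N`, `S`, `p` only) such that for all `n ≥ v`: a noncommutative
polynomial `P` in the Hecke operators `T_l` (`l` prime, `l ∤ N`, `l ∉ S`) whose transfer version
kills, modulo `p ^ n`, every homomorphism `Γ₀(N) → ℤ / p ^ n` vanishing on the elements of trace
of absolute value at most `2` (e.g. because `P` kills `J₀(N)[p ^ n]`, via the comparison map),
satisfies `P(T) ∈ p ^ (n - v) • heckeAlgebra N 2 S`.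
-/
import Mathlib
import Fermat.Prelude.Def_CuspForm_HeckeAlgebra
import Fermat.Agent.S29.PeriodGen
import Fermat.Agent.S29.Reduce
import Fermat.Agent.S31.HeckeResAbs

set_option autoImplicit false

open CongruenceSubgroup CuspForm ModularCurve
open scoped MatrixGroups

namespace Fermat.Agent.S31

open Fermat.Agent.S29

/-- the good primes: `l` prime, `l ∤ N`, `l ∉ S` -/
def HresIdx (N : ℕ) (S : Set ℕ) : Type := {l : ℕ // l.Prime ∧ ¬ l ∣ N ∧ l ∉ S}

/-- the good prime `l` as an index -/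
def hresIdxMk {N : ℕ} {S : Set ℕ} {l : ℕ} (hl : l.Prime) (hlN : ¬ l ∣ N) (hlS : l ∉ S) :
    HresIdx N S := ⟨l, hl, hlN, hlS⟩

/-- evaluation of a noncommutative polynomial at the Hecke operators `T_l` of the Hecke algebra -/
noncomputable def hresT (N : ℕ) [NeZero N] (S : Set ℕ) :
    FreeAlgebra ℤ (HresIdx N S) →ₐ[ℤ] heckeAlgebra N 2 S :=
  FreeAlgebra.lift ℤ (fun l => heckeAlgebra.T l.2.1 l.2.2.1 l.2.2.2)

theorem hresT_ι (N : ℕ) [NeZero N] (S : Set ℕ) (l : HresIdx N S) :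
    hresT N S (FreeAlgebra.ι ℤ l) = heckeAlgebra.T l.2.1 l.2.2.1 l.2.2.2 := by
  simp [hresT]

/-- evaluation of a noncommutative polynomial at the transfer operators `heckeTr N l A` on
`Hom(Γ₀(N), A)` -/
noncomputable def hresTr (N : ℕ) (S : Set ℕ) (A : Type) [AddCommGroup A] :
    FreeAlgebra ℤ (HresIdx N S) →ₐ[ℤ] Module.End ℤ (Additive (Gamma0 N) →+ A) :=
  hresEv (fun (A : Type) [AddCommGroup A] (l : HresIdx N S) => heckeTr N l.1 A) A

theorem hresTr_ι (N : ℕ) (S : Set ℕ) (A : Type) [AddCommGroup A] (l : HresIdx N S)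
    (ψ : Additive (Gamma0 N) →+ A) :
    hresTr N S A (FreeAlgebra.ι ℤ l) ψ = heckeTr N l.1 A ψ :=
  hresEv_ι _ A l ψ

/-- evaluation of a noncommutative polynomial at a family of endomorphisms -/
noncomputable def hresJ {N : ℕ} {S : Set ℕ} {X : Type*} [AddCommGroup X]
    (TJ : HresIdx N S → Module.End ℤ X) : FreeAlgebra ℤ (HresIdx N S) →ₐ[ℤ] Module.End ℤ X :=
  FreeAlgebra.lift ℤ TJ

theorem hresJ_ι {N : ℕ} {S : Set ℕ} {X : Type*} [AddCommGroup X]
    (TJ : HresIdx N S → Module.End ℤ X) (l : HresIdx N S) :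
    hresJ TJ (FreeAlgebra.ι ℤ l) = TJ l := by
  simp [hresJ]

/-- the period map intertwines `P(T)` with `P(heckeTr)` -/
theorem hres_period (N : ℕ) [NeZero N] (S : Set ℕ) (P : FreeAlgebra ℤ (HresIdx N S)) :
    ∀ f : CuspForm (Gamma0 N) 2,
      hresTr N S ℂ P (periodMap N f) =
        periodMap N ((hresT N S P : Module.End ℂ (CuspForm (Gamma0 N) 2)) f) := by
  refine FreeAlgebra.induction ℤ (HresIdx N S) ?_ ?_ ?_ ?_ P
  · intro r f
    rw [AlgHom.commutes, AlgHom.commutes, Algebra.algebraMap_eq_smul_one,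
      Algebra.algebraMap_eq_smul_one, LinearMap.smul_apply, Module.End.one_apply]
    have h1 : (((r • (1 : heckeAlgebra N 2 S) : heckeAlgebra N 2 S) :
        Module.End ℂ (CuspForm (Gamma0 N) 2)) f) = r • f := by
      rw [show ((r • (1 : heckeAlgebra N 2 S) : heckeAlgebra N 2 S) :
        Module.End ℂ (CuspForm (Gamma0 N) 2)) = r • (1 : Module.End ℂ (CuspForm (Gamma0 N) 2))
        from rfl, LinearMap.smul_apply, Module.End.one_apply]
    rw [h1]
    exact (map_zsmul (per_periodLin N) r f).symm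
  · intro l f
    rw [hresTr_ι, hresT_ι, heckeAlgebra.coe_T]
    exact per_heckeTr_periodMap l.2.1 l.2.2.1 f
  · intro a b ha hb f
    rw [map_mul, map_mul, Module.End.mul_apply, hb, ha]
    rfl
  · intro a b ha hb f
    rw [map_add, map_add, LinearMap.add_apply, ha, hb]
    exact (map_add (per_periodLin N) _ _).symm

/-- **HECKERES.** -/
theorem hres_main (N : ℕ) [NeZero N] (S : Set ℕ) (p : ℕ) :
    ∃ v : ℕ, ∀ n : ℕ, v ≤ n → ∀ P : FreeAlgebra ℤ (HresIdx N S),
      (∀ χ : Additive (Gamma0 N) →+ ZMod (p ^ n), (∀ s ∈ redS N, χ s = 0) →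
        hresTr N S (ZMod (p ^ n)) P χ = 0) →
      ∃ Q : FreeAlgebra ℤ (HresIdx N S), hresT N S P = ((p : ℤ) ^ (n - v)) • hresT N S Q := by
  haveI : AddGroup.FG (Additive (Gamma0 N)) := egr_gamma0_fg N
  obtain ⟨v, hv⟩ := hres_abs (redS N)
    (fun (A : Type) [AddCommGroup A] (l : HresIdx N S) => heckeTr N l.1 A)
    (fun A B _ _ φ l ψ => heckeTr_comp N l.1 φ ψ) p
  refine ⟨v, fun n hn P hP => ?_⟩
  obtain ⟨Q, hQ⟩ := hv n hn P hP
  refine ⟨Q, Subtype.ext (LinearMap.ext fun f => ?_)⟩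
  apply per_periodLin_injective (N := N)
  have hf : ∀ s ∈ redS N, periodMap N f s = 0 := fun s hs =>
    per_periodLin_trace_le_two f (Additive.toMul s) hs
  have h1 := hres_period N S P f
  have h2 := hres_period N S Q f
  have h3 : hresTr N S ℂ P (periodMap N f) = ((p : ℤ) ^ (n - v)) • hresTr N S ℂ Q (periodMap N f) :=
    hQ _ hf
  rw [per_periodLin_apply, per_periodLin_apply, ← h1, h3, h2]
  have h4 : ((((p : ℤ) ^ (n - v)) • hresT N S Q : heckeAlgebra N 2 S) :
      Module.End ℂ (CuspForm (Gamma0 N) 2)) f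
      = ((p : ℤ) ^ (n - v)) • ((hresT N S Q : Module.End ℂ (CuspForm (Gamma0 N) 2)) f) := rfl
  rw [h4]
  exact (map_zsmul (per_periodLin N) _ _).symm

/-- equivariance of a comparison map passes to noncommutative polynomials -/
theorem hres_equivariant (N : ℕ) (S : Set ℕ) {m : ℕ} {X : Type*} [AddCommGroup X]
    (TJ : HresIdx N S → Module.End ℤ X) (Φ : X →+ (Additive (Gamma0 N) →+ ZMod m))
    (hΦT : ∀ l c, Φ (TJ l c) = heckeTr N l.1 (ZMod m) (Φ c)) (P : FreeAlgebra ℤ (HresIdx N S)) :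
    ∀ c : X, Φ (hresJ TJ P c) = hresTr N S (ZMod m) P (Φ c) := by
  refine FreeAlgebra.induction ℤ (HresIdx N S) ?_ ?_ ?_ ?_ P
  · intro r c
    rw [AlgHom.commutes, AlgHom.commutes, Algebra.algebraMap_eq_smul_one,
      Algebra.algebraMap_eq_smul_one, LinearMap.smul_apply, LinearMap.smul_apply,
      Module.End.one_apply, Module.End.one_apply, map_zsmul]
  · intro l c
    rw [hresJ_ι, hresTr_ι, hΦT]
  · intro a b ha hb c
    rw [map_mul, map_mul, Module.End.mul_apply, Module.End.mul_apply, ha, hb]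
  · intro a b ha hb c
    rw [map_add, map_add, LinearMap.add_apply, LinearMap.add_apply, map_add, ha, hb]

/-- the hypothesis of `hres_main` from a comparison map: if `P(T^J)` kills the source of an
equivariant map `Φ` whose range contains the homomorphisms killing `redS N`, then `P(heckeTr)`
kills those homomorphisms. -/
theorem hres_of_cmp (N : ℕ) (S : Set ℕ) {m : ℕ} {X : Type*} [AddCommGroup X]
    (TJ : HresIdx N S → Module.End ℤ X) (Φ : X →+ (Additive (Gamma0 N) →+ ZMod m))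
    (hΦT : ∀ l c, Φ (TJ l c) = heckeTr N l.1 (ZMod m) (Φ c))
    (hΦS : ∀ ψ : Additive (Gamma0 N) →+ ZMod m, (∀ s ∈ redS N, ψ s = 0) → ψ ∈ Set.range Φ)
    (P : FreeAlgebra ℤ (HresIdx N S)) (hP : ∀ c : X, hresJ TJ P c = 0) :
    ∀ χ : Additive (Gamma0 N) →+ ZMod m, (∀ s ∈ redS N, χ s = 0) → hresTr N S (ZMod m) P χ = 0 := by
  intro χ hχ
  obtain ⟨c, rfl⟩ := hΦS χ hχ
  rw [← hres_equivariant N S TJ Φ hΦT P c, hP c, map_zero]

/-- **HECKERES, consumer form**: `v` works for every comparison datum at level `p ^ n`. -/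
theorem hres_final (N : ℕ) [NeZero N] (S : Set ℕ) (p : ℕ) :
    ∃ v : ℕ, ∀ n : ℕ, v ≤ n → ∀ (X : Type) [AddCommGroup X]
      (TJ : HresIdx N S → Module.End ℤ X) (Φ : X →+ (Additive (Gamma0 N) →+ ZMod (p ^ n))),
      (∀ l c, Φ (TJ l c) = heckeTr N l.1 (ZMod (p ^ n)) (Φ c)) →
      (∀ ψ : Additive (Gamma0 N) →+ ZMod (p ^ n), (∀ s ∈ redS N, ψ s = 0) → ψ ∈ Set.range Φ) →
      ∀ P : FreeAlgebra ℤ (HresIdx N S), (∀ c : X, hresJ TJ P c = 0) →
      ∃ Q : FreeAlgebra ℤ (HresIdx N S), hresT N S P = ((p : ℤ) ^ (n - v)) • hresT N S Q := by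
  obtain ⟨v, hv⟩ := hres_main N S p
  exact ⟨v, fun n hn X _ TJ Φ hΦT hΦS P hP =>
    hv n hn P (hres_of_cmp N S TJ Φ hΦT hΦS P hP)⟩

end Fermat.Agent.S31
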