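import Mathlib

/-!
# S31, package LUCAS

The Lucas sequence `V_k(a, c)` (`V_0 = 2`, `V_1 = a`, `V_(k+2) = a V_(k+1) - c V_k`) in an
arbitrary ring, and the three ways it enters the trace argument of S31:

* `luc_map`: naturality under ring homomorphisms (in particular under `FreeAlgebra.lift`,
  `luc_lift`).
* `luc_pow_add_pow`, `luc_pow_add_inv`, `luc_rep`: if `x ^ 2 - a x + c = 0` with `a` commuting
  with `x`, then `x ^ k + (a - x) ^ k = V_k(a, c)`; for a unit `x` this reads
  `x ^ k + c ^ k x ^ (-k) = V_k(a, c)`.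
* `luc_trace_pow`, `luc_trace_rep`: for an endomorphism `M` of a free module of rank two with
  characteristic polynomial `X ^ 2 - a X + c`, `trace (M ^ k) = V_k(a, c)`.
-/

set_option autoImplicit false

namespace Fermat.Agent.S31

open Polynomial

/-- The Lucas sequence `V_k(a, c)`: `V_0 = 2`, `V_1 = a`, `V_(k+2) = a * V_(k+1) - c * V_k`. -/
def lucV {A : Type*} [Ring A] (a c : A) : ℕ → A
  | 0 => 2
  | 1 => a
  | (k + 2) => a * lucV a c (k + 1) - c * lucV a c k

section basic

variable {A : Type*} [Ring A]

@[simp] theorem lucV_zero (a c : A) : lucV a c 0 = 2 := rfl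

@[simp] theorem lucV_one (a c : A) : lucV a c 1 = a := rfl

theorem lucV_succ_succ (a c : A) (k : ℕ) :
    lucV a c (k + 2) = a * lucV a c (k + 1) - c * lucV a c k := rfl

/-- Two-step induction principle used throughout. -/
theorem luc_two_step {P : ℕ → Prop} (h0 : P 0) (h1 : P 1)
    (h2 : ∀ k, P k → P (k + 1) → P (k + 2)) (k : ℕ) : P k := by
  have : P k ∧ P (k + 1) := by
    induction k with
    | zero => exact ⟨h0, h1⟩
    | succ k ih => exact ⟨ih.2, h2 k ih.1 ih.2⟩
  exact this.1

/-- Naturality of the Lucas sequence under ring homomorphisms. -/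
theorem luc_map {B : Type*} [Ring B] (f : A →+* B) (a c : A) (k : ℕ) :
    f (lucV a c k) = lucV (f a) (f c) k := by
  induction k using luc_two_step with
  | h0 => rw [lucV_zero, lucV_zero]; exact map_ofNat f 2
  | h1 => rw [lucV_one, lucV_one]
  | h2 k ih0 ih1 => rw [lucV_succ_succ, lucV_succ_succ, map_sub, map_mul, map_mul, ih0, ih1]

/-- The Lucas sequence in a free algebra evaluates to the Lucas sequence of the images. -/
theorem luc_lift {R : Type*} [CommRing R] {I : Type*} {B : Type*} [Ring B] [Algebra R B]
    (g : I → B) (i : I) (c : R) (k : ℕ) :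
    FreeAlgebra.lift R g (lucV (FreeAlgebra.ι R i) (algebraMap R (FreeAlgebra R I) c) k) =
      lucV (g i) (algebraMap R B c) k := by
  have h := luc_map (FreeAlgebra.lift R g : FreeAlgebra R I →ₐ[R] B).toRingHom
    (FreeAlgebra.ι R i) (algebraMap R (FreeAlgebra R I) c) k
  simpa using h

/-- Naturality, with a natural number as constant term. -/
theorem luc_map_natCast {B : Type*} [Ring B] (f : A →+* B) (a : A) (n k : ℕ) :
    f (lucV a (n : A) k) = lucV (f a) (n : B) k := by
  rw [luc_map, map_natCast]

/-- The Lucas sequence in a free algebra, with a natural number as constant term. -/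
theorem luc_lift_natCast {R : Type*} [CommRing R] {I : Type*} {B : Type*} [Ring B] [Algebra R B]
    (g : I → B) (i : I) (n k : ℕ) :
    FreeAlgebra.lift R g (lucV (FreeAlgebra.ι R i) (n : FreeAlgebra R I) k) =
      lucV (g i) (n : B) k := by
  have h := luc_map_natCast (FreeAlgebra.lift R g : FreeAlgebra R I →ₐ[R] B).toRingHom
    (FreeAlgebra.ι R i) n k
  simpa using h

/-- **Power sums.** If `x * x - a * x + c = 0` and `a` commutes with `x`, then
`x ^ k + (a - x) ^ k = V_k(a, c)`. -/
theorem luc_pow_add_pow (x a c : A) (h : x * x - a * x + c = 0) (hax : a * x = x * a) (k : ℕ) :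
    x ^ k + (a - x) ^ k = lucV a c k := by
  have hc : c = a * x - x * x := by
    have h' : c = -(x * x - a * x) := eq_neg_of_add_eq_zero_right h
    rw [h']; abel
  have h1 : x * (a - x) = c := by rw [mul_sub, ← hax, hc]
  have h2 : (a - x) * x = c := by rw [sub_mul, hc]
  induction k using luc_two_step with
  | h0 => rw [pow_zero, pow_zero, lucV_zero]; norm_num
  | h1 => rw [pow_one, pow_one, lucV_one]; abel
  | h2 k ih0 ih1 =>
    rw [lucV_succ_succ, ← ih0, ← ih1]
    have hax' : a * x = x * x + c := by rw [hc]; abel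
    have hax'' : a * (a - x) = c + (a - x) * (a - x) := by
      have : (a - x) * (a - x) = a * (a - x) - x * (a - x) := sub_mul a x (a - x)
      rw [this, h1]; abel
    have e1 : a * x ^ (k + 1) = x ^ (k + 2) + c * x ^ k := by
      rw [pow_succ' x k, ← mul_assoc, hax', add_mul, mul_assoc, ← pow_succ', ← pow_succ']
    have e2 : a * (a - x) ^ (k + 1) = c * (a - x) ^ k + (a - x) ^ (k + 2) := by
      rw [pow_succ' (a - x) k, ← mul_assoc, hax'', add_mul, mul_assoc, ← pow_succ', ← pow_succ']
    rw [mul_add, e1, e2, mul_add]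
    abel

/-- **Power sums for a unit.** If `x * x - a * x + c = 0`, `a` commutes with `x`, and `y` is a
right inverse of `x` commuting with `c`, then `x ^ k + c ^ k * y ^ k = V_k(a, c)`. -/
theorem luc_pow_add_inv (x y a c : A) (h : x * x - a * x + c = 0) (hax : a * x = x * a)
    (hxy : x * y = 1) (hcy : c * y = y * c) (k : ℕ) :
    x ^ k + c ^ k * y ^ k = lucV a c k := by
  have hc : c = a * x - x * x := by
    have h' : c = -(x * x - a * x) := eq_neg_of_add_eq_zero_right h
    rw [h']; abel
  have h2 : (a - x) * x = c := by rw [sub_mul, hc]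
  have h3 : a - x = c * y := by
    rw [← h2, mul_assoc, hxy, mul_one]
  have hcomm : Commute c y := hcy
  rw [← hcomm.mul_pow, ← h3]
  exact luc_pow_add_pow x a c h hax k

/-- **Power sums in a representation.** If `ρ σ` satisfies `X ^ 2 - a X + c` with `a` commuting
with `ρ σ` and `c` commuting with `ρ σ⁻¹`, then `ρ (σ ^ k) + c ^ k * ρ (σ ^ k)⁻¹ = V_k(a, c)`. -/
theorem luc_rep {G : Type*} [Group G] (ρ : G →* A) (σ : G) (a c : A)
    (h : ρ σ * ρ σ - a * ρ σ + c = 0) (hax : a * ρ σ = ρ σ * a)
    (hc : c * ρ σ⁻¹ = ρ σ⁻¹ * c) (k : ℕ) :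
    ρ (σ ^ k) + c ^ k * ρ (σ ^ k)⁻¹ = lucV a c k := by
  have hxy : ρ σ * ρ σ⁻¹ = 1 := by rw [← map_mul, mul_inv_cancel, map_one]
  rw [← inv_pow, map_pow, map_pow]
  exact luc_pow_add_inv (ρ σ) (ρ σ⁻¹) a c h hax hxy hc k

/-- **Quadratic relation for powers, explicit form.** In an algebra over a commutative ring, if
`T * T - a • T + c • 1 = 0` then `T ^ n * T ^ n - V_n(a, c) • T ^ n + c ^ n • 1 = 0`. -/
theorem luc_quad_pow {R : Type*} [CommRing R] [Algebra R A] (T : A) (a c : R)
    (h : T * T - a • T + c • (1 : A) = 0) (n : ℕ) :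
    T ^ n * T ^ n - lucV a c n • T ^ n + c ^ n • (1 : A) = 0 := by
  have h' : T * T - algebraMap R A a * T + algebraMap R A c = 0 := by
    rw [← h, Algebra.smul_def, Algebra.smul_def, mul_one]
  have hax : algebraMap R A a * T = T * algebraMap R A a := Algebra.commutes a T
  have hs := luc_pow_add_pow T (algebraMap R A a) (algebraMap R A c) h' hax n
  rw [← luc_map] at hs
  have hc : algebraMap R A c = algebraMap R A a * T - T * T := by
    have h'' : algebraMap R A c = -(T * T - algebraMap R A a * T) :=
      eq_neg_of_add_eq_zero_right h'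
    rw [h'']; abel
  have h1 : T * (algebraMap R A a - T) = algebraMap R A c := by rw [mul_sub, ← hax, hc]
  have hcomm : Commute T (algebraMap R A a - T) := by
    show T * (algebraMap R A a - T) = (algebraMap R A a - T) * T
    rw [mul_sub, sub_mul, hax]
  have h2 : T ^ n * (algebraMap R A a - T) ^ n = algebraMap R A (c ^ n) := by
    rw [← hcomm.mul_pow, h1, map_pow]
  have h3 : c ^ n • (1 : A) = algebraMap R A (c ^ n) := by rw [Algebra.smul_def, mul_one]
  rw [Algebra.smul_def, ← hs, h3, ← h2, add_mul, (hcomm.pow_pow n n).eq]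
  abel

end basic

section trace

variable {T : Type*} [CommRing T] {V : Type*} [AddCommGroup V] [Module T V] [Module.Free T V]
  [Module.Finite T V]

/-- The trace of an endomorphism of a free module of rank two is the negative of the linear
coefficient of its characteristic polynomial. -/
theorem luc_trace_eq (hV : Module.finrank T V = 2) (M : Module.End T V) (a c : T)
    (h : LinearMap.charpoly M = X ^ 2 - C a * X + C c) : LinearMap.trace T V M = a := by
  nontriviality T
  let b := Module.finBasisOfFinrankEq T V hV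
  have h1 := LinearMap.charpoly_toMatrix M b
  rw [Matrix.charpoly_fin_two, h] at h1
  have htr : LinearMap.trace T V M = (LinearMap.toMatrix b b M).trace :=
    LinearMap.trace_eq_matrix_trace T b M
  have c1 := congrArg (fun p : T[X] => p.coeff 1) h1
  simp [coeff_C] at c1
  rw [htr]
  exact c1

/-- **Traces of powers.** For an endomorphism `M` of a free module of rank two with
characteristic polynomial `X ^ 2 - a X + c`: `trace (M ^ k) = V_k(a, c)`. -/
theorem luc_trace_pow (hV : Module.finrank T V = 2) (M : Module.End T V) (a c : T)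
    (h : LinearMap.charpoly M = X ^ 2 - C a * X + C c) (k : ℕ) :
    LinearMap.trace T V (M ^ k) = lucV a c k := by
  have hCH : M ^ 2 - a • M + c • (1 : Module.End T V) = 0 := by
    have h0 := LinearMap.aeval_self_charpoly M
    rw [h] at h0
    simpa [Algebra.smul_def] using h0
  induction k using luc_two_step with
  | h0 =>
    rw [pow_zero, LinearMap.trace_one, hV, lucV_zero]
    norm_num
  | h1 => rw [pow_one, lucV_one]; exact luc_trace_eq hV M a c h
  | h2 k ih0 ih1 =>
    have e : M ^ (k + 2) = a • M ^ (k + 1) - c • M ^ k := by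
      have h2 : M ^ 2 = a • M - c • (1 : Module.End T V) := by
        rw [← sub_eq_zero, ← hCH]; abel
      rw [pow_add, h2, mul_sub, mul_smul_comm, mul_smul_comm, mul_one, ← pow_succ]
    rw [e, map_sub, map_smul, map_smul, ih0, ih1, lucV_succ_succ, smul_eq_mul, smul_eq_mul]

/-- **Traces of powers in a representation.** -/
theorem luc_trace_rep {G : Type*} [Monoid G] (hV : Module.finrank T V = 2)
    (ρ : G →* Module.End T V) (σ : G) (a c : T)
    (h : LinearMap.charpoly (ρ σ) = X ^ 2 - C a * X + C c) (k : ℕ) :
    LinearMap.trace T V (ρ (σ ^ k)) = lucV a c k := by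
  rw [map_pow]
  exact luc_trace_pow hV (ρ σ) a c h k

end trace

end Fermat.Agent.S31
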