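import Mathlib
import Fermat.Agent.S31.Lucas

/-!
# S31, abstract core of the trace argument

`tra_main`: a representation `ρ` on a free module of rank two over a commutative ring `T`, an
auxiliary action `ρJ` of the same group in a ring `E` (endomorphisms of a torsion group), and
"Frobenius elements" whose characteristic polynomial on `V` and whose quadratic relation on `J`
are governed by the same Hecke operators.  If every group element is congruent to a Frobenius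
power (density) and every noncommutative polynomial in the Hecke operators that vanishes on `J`
has image in the ideal `𝔞` of `T`, then `trace ρ (g * σ) - trace ρ g ∈ 𝔞` for every `σ` acting
trivially on `J` and on the cyclotomic values.

`tra_eq_of_local`: separatedness of a Noetherian local ring, to conclude equality of traces.
-/

set_option autoImplicit false

namespace Fermat.Agent.S31

open Polynomial

/-- In a monoid-valued representation, `ρ h⁻¹` is determined by `ρ h`. -/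
theorem tra_inv_eq {G : Type*} [Group G] {E : Type*} [Monoid E] (ρJ : G →* E) (h g : G)
    (hg : ρJ h = ρJ g) : ρJ h⁻¹ = ρJ g⁻¹ := by
  have h1 : ρJ h⁻¹ * ρJ h = 1 := by rw [← map_mul, inv_mul_cancel, map_one]
  have h2 : ρJ g * ρJ g⁻¹ = 1 := by rw [← map_mul, mul_inv_cancel, map_one]
  calc ρJ h⁻¹ = ρJ h⁻¹ * (ρJ g * ρJ g⁻¹) := by rw [h2, mul_one]
    _ = ρJ h⁻¹ * ρJ h * ρJ g⁻¹ := by rw [← hg, mul_assoc]
    _ = ρJ g⁻¹ := by rw [h1, one_mul]

/-- **Abstract trace argument.** -/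
theorem tra_main {G : Type*} [Group G] {T : Type*} [CommRing T] (𝔞 : Ideal T) {V : Type*}
    [AddCommGroup V] [Module T V] [Module.Free T V] [Module.Finite T V]
    (hV : Module.finrank T V = 2) (ρ : G →* Module.End T V) {E : Type*} [Ring E] (ρJ : G →* E)
    (ε : G → E) {I : Type*} (t : I → T) (θ : I → E) (ℓ : I → ℕ)
    (hD : ∀ g : G, ∃ (τ : G) (i : I) (m : ℕ),
      LinearMap.charpoly (ρ τ) = X ^ 2 - C (t i) * X + C ((ℓ i : ℕ) : T) ∧
      ρJ τ * ρJ τ - θ i * ρJ τ + ((ℓ i : ℕ) : E) = 0 ∧ θ i * ρJ τ = ρJ τ * θ i ∧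
      LinearMap.trace T V (ρ (τ ^ m)) - LinearMap.trace T V (ρ g) ∈ 𝔞 ∧ ρJ (τ ^ m) = ρJ g ∧
      ((ℓ i : ℕ) : E) ^ m = ε g)
    (hR : ∀ P : FreeAlgebra ℤ I, FreeAlgebra.lift ℤ θ P = 0 → FreeAlgebra.lift ℤ t P ∈ 𝔞)
    (g σ : G) (hσJ : ρJ σ = 1) (hσε : ε (g * σ) = ε g) :
    LinearMap.trace T V (ρ (g * σ)) - LinearMap.trace T V (ρ g) ∈ 𝔞 := by
  obtain ⟨τ, i, m, hcp, hrel, hcomm, htr, hJ, hε⟩ := hD g
  obtain ⟨τ', i', m', hcp', hrel', hcomm', htr', hJ', hε'⟩ := hD (g * σ)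
  have e1 : LinearMap.trace T V (ρ (τ ^ m)) = lucV (t i) ((ℓ i : ℕ) : T) m :=
    luc_trace_rep hV ρ τ _ _ hcp m
  have e1' : LinearMap.trace T V (ρ (τ' ^ m')) = lucV (t i') ((ℓ i' : ℕ) : T) m' :=
    luc_trace_rep hV ρ τ' _ _ hcp' m'
  have e2 := luc_rep ρJ τ (θ i) ((ℓ i : ℕ) : E) hrel hcomm (Nat.cast_commute (ℓ i) _).eq m
  have e2' := luc_rep ρJ τ' (θ i') ((ℓ i' : ℕ) : E) hrel' hcomm'
    (Nat.cast_commute (ℓ i') _).eq m'
  have hgσ : ρJ (g * σ) = ρJ g := by rw [map_mul, hσJ, mul_one]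
  rw [hJ, tra_inv_eq ρJ (τ ^ m) g hJ, hε] at e2
  rw [hJ', hgσ, tra_inv_eq ρJ (τ' ^ m') g (hJ'.trans hgσ), hε', hσε] at e2'
  have hP : FreeAlgebra.lift ℤ θ
      (lucV (FreeAlgebra.ι ℤ i) ((ℓ i : ℕ) : FreeAlgebra ℤ I) m -
        lucV (FreeAlgebra.ι ℤ i') ((ℓ i' : ℕ) : FreeAlgebra ℤ I) m') = 0 := by
    rw [map_sub, luc_lift_natCast, luc_lift_natCast, ← e2, ← e2', sub_self]
  have h3 := hR _ hP
  rw [map_sub, luc_lift_natCast, luc_lift_natCast, ← e1, ← e1'] at h3
  have h4 : LinearMap.trace T V (ρ (g * σ)) - LinearMap.trace T V (ρ g) =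
      (LinearMap.trace T V (ρ (τ ^ m)) - LinearMap.trace T V (ρ g)) -
        (LinearMap.trace T V (ρ (τ' ^ m')) - LinearMap.trace T V (ρ (g * σ))) -
          (LinearMap.trace T V (ρ (τ ^ m)) - LinearMap.trace T V (ρ (τ' ^ m'))) := by
    ring
  rw [h4]
  exact 𝔞.sub_mem (𝔞.sub_mem htr htr') h3

/-- Separatedness of a Noetherian local ring: two elements congruent modulo every power of
the maximal ideal are equal. -/
theorem tra_eq_of_local {T : Type*} [CommRing T] [IsLocalRing T] [IsNoetherianRing T] (x y : T)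
    (h : ∀ n : ℕ, x - y ∈ IsLocalRing.maximalIdeal T ^ n) : x = y := by
  have h1 : x - y ∈ ⨅ n : ℕ, IsLocalRing.maximalIdeal T ^ n := by
    rw [Ideal.mem_iInf]
    exact h
  rw [Ideal.iInf_pow_eq_bot_of_isLocalRing _ (IsLocalRing.maximalIdeal.isMaximal T).ne_top,
    Ideal.mem_bot] at h1
  exact sub_eq_zero.mp h1

end Fermat.Agent.S31
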