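import Mathlib
import Fermat.Prelude.Def_CuspForm_HeckeGaloisRepDatum
import Fermat.Agent.S29.TorsRep
import Fermat.Agent.S29.FrobDens
import Fermat.Agent.S30.CycloAdic
import Fermat.Agent.S31.Lucas
import Fermat.Agent.S31.TraceAbs
import Fermat.Agent.S31.HeckeRes
import Fermat.Agent.S31.Burn

/-!
# S31, package TRACE (concrete inputs)

The trace of the Galois representation of a Hecke-Galois datum is unramified outside `S`:
`trace ρ(g σ) = trace ρ(g)` for `σ` in an inertia group at `q ∉ S` (`trc_main`), given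

* the finiteness of the `p ^ n`-torsion of `J₀(N)` and
* the transfer "a noncommutative polynomial in the Hecke operators killing `J₀(N)[p ^ n']` maps
  into `𝔪_T ^ n` under `π`" (HECKERES),

both as hypotheses.  Ingredients proved here:

* `trc_trace_congr`: adic continuity gives a finite level for the trace modulo `𝔪 ^ n`;
* `trc_torsion_field`: a finite torsion group of `J₀(N)` has a finite level;
* `trcEps`: the cyclotomic character modulo `p ^ n`;
* `trc_density`: every `g` agrees with a power of a Frobenius element on a prescribed finite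
  level, on `J₀(N)[p ^ n]` and on the `p ^ n`-th roots of unity;
* `trc_lucV_eq`: `V_b(T_ℓ, ℓ) = g + ε(g) g⁻¹` on `J₀(N)[m]` when `g` is the `b`-th power of a
  Frobenius element at `ℓ` there.
-/

set_option autoImplicit false

open ModularCurve AlgebraicCurve

namespace Fermat.Agent.S31

open Fermat.Agent.S29 Fermat.Agent.S30

local notation "Qb" => AlgebraicClosure ℚ

section trace

variable {T : Type*} [CommRing T] {V : Type*} [AddCommGroup V] [Module T V]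

/-- The coordinates of an element of `I • ⊤` lie in `I`. -/
theorem trc_repr_mem {ι : Type*} (b : Module.Basis ι T V) (I : Ideal T) (x : V)
    (hx : x ∈ I • (⊤ : Submodule T V)) (i : ι) : b.repr x i ∈ I := by
  refine Submodule.smul_induction_on hx ?_ ?_
  · intro a ha w _
    rw [map_smul, Finsupp.smul_apply, smul_eq_mul]
    exact I.mul_mem_right _ ha
  · intro x y hx hy
    rw [map_add, Finsupp.add_apply]
    exact I.add_mem hx hy

/-- Linear maps preserve `I • ⊤`. -/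
theorem trc_map_mem (I : Ideal T) (f : Module.End T V) (x : V)
    (hx : x ∈ I • (⊤ : Submodule T V)) : f x ∈ I • (⊤ : Submodule T V) := by
  refine Submodule.smul_induction_on hx ?_ ?_
  · intro a ha w _
    rw [map_smul]
    exact Submodule.smul_mem_smul ha Submodule.mem_top
  · intro x y hx hy
    rw [map_add]
    exact Submodule.add_mem _ hx hy

/-- An endomorphism of a finite free module with image in `I V` has trace in `I`. -/
theorem trc_trace_mem [Module.Free T V] [Module.Finite T V] (I : Ideal T) (D : Module.End T V)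
    (hD : ∀ v, D v ∈ I • (⊤ : Submodule T V)) : LinearMap.trace T V D ∈ I := by
  classical
  rw [LinearMap.trace_eq_matrix_trace T (Module.Free.chooseBasis T V), Matrix.trace]
  refine I.sum_mem (fun i _ => ?_)
  rw [Matrix.diag_apply, LinearMap.toMatrix_apply]
  exact trc_repr_mem _ I _ (hD _) i

end trace

/-- **Finite level of the trace.**  Modulo `𝔪 ^ n` the trace of an adically continuous
representation only depends on the restriction to a number field. -/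
theorem trc_trace_congr {T : Type} [CommRing T] [IsLocalRing T] (ρ : GaloisRepAdic T) (n : ℕ) :
    ∃ L : IntermediateField ℚ Qb, FiniteDimensional ℚ L ∧
      ∀ g g' : Qb ≃ₐ[ℚ] Qb, (∀ x ∈ L, g x = g' x) →
        LinearMap.trace T ρ.V (ρ.ρ g) - LinearMap.trace T ρ.V (ρ.ρ g')
          ∈ IsLocalRing.maximalIdeal T ^ n := by
  obtain ⟨L, hL, h⟩ := ρ.isAdicContinuous n
  refine ⟨L, hL, fun g g' hgg' => ?_⟩
  rw [← map_sub]
  apply trc_trace_mem
  intro v
  have h1 : ∀ x ∈ L, (g'⁻¹ * g) x = x := by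
    intro x hx
    rw [AlgEquiv.mul_apply, hgg' x hx]
    exact g'.symm_apply_apply x
  have h2 := h (g'⁻¹ * g) h1 v
  have h3 : (ρ.ρ g - ρ.ρ g') v = ρ.ρ g' (ρ.ρ (g'⁻¹ * g) v - v) := by
    rw [map_sub, ← Module.End.mul_apply, ← map_mul, mul_inv_cancel_left, LinearMap.sub_apply]
  rw [h3]
  exact trc_map_mem _ _ _ h2

/-- **Finite level of a finite torsion group of `J₀(N)`.** -/
theorem trc_torsion_field (N : ℕ) [NeZero N] (m : ℕ)
    [Finite ↥(Pic0.torsion Qb (modularFunctionFieldBar N) m)] :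
    ∃ L : IntermediateField ℚ Qb, FiniteDimensional ℚ L ∧
      ∀ σ : Qb ≃ₐ[ℚ] Qb, (∀ x ∈ L, σ x = x) → JZero.torsionGaloisRep N m σ = 1 := by
  classical
  have := Fintype.ofFinite ↥(Pic0.torsion Qb (modularFunctionFieldBar N) m)
  have h := flOpen_forall_mem (K := Qb) Finset.univ
    (fun (x : ↥(Pic0.torsion Qb (modularFunctionFieldBar N) m)) σ =>
      JZero.torsionGaloisRep N m σ x = x) (fun x _ => trs_open N m x)
  obtain ⟨L, hL, hL'⟩ := h.exists_field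
  exact ⟨L, hL, fun σ hσ => LinearMap.ext fun x => hL' σ hσ x (Finset.mem_univ x)⟩

/-- A representation which is trivial on the automorphisms fixing `L` takes the same value on
two automorphisms agreeing on `L`. -/
theorem trc_rep_eq_of_eqOn {E : Type*} [Monoid E] (r : (Qb ≃ₐ[ℚ] Qb) →* E)
    (L : IntermediateField ℚ Qb) (hL : ∀ σ : Qb ≃ₐ[ℚ] Qb, (∀ x ∈ L, σ x = x) → r σ = 1)
    (g h : Qb ≃ₐ[ℚ] Qb) (hgh : ∀ x ∈ L, h x = g x) : r h = r g := by
  have h1 : r (g⁻¹ * h) = 1 := hL _ (fun x hx => by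
    rw [AlgEquiv.mul_apply, hgh x hx]
    exact g.symm_apply_apply x)
  have h2 : r h = r g * r (g⁻¹ * h) := by rw [← map_mul, mul_inv_cancel_left]
  rw [h2, h1, mul_one]

/-- The cyclotomic character modulo `p ^ n`. -/
noncomputable def trcEps (p : ℕ) [Fact p.Prime] (n : ℕ) (g : Qb ≃ₐ[ℚ] Qb) : ZMod (p ^ n) :=
  PadicInt.toZModPow n (cyaChar p g : ℤ_[p])

theorem trcEps_mul (p : ℕ) [Fact p.Prime] (n : ℕ) (g h : Qb ≃ₐ[ℚ] Qb) :
    trcEps p n (g * h) = trcEps p n g * trcEps p n h := by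
  unfold trcEps
  rw [map_mul, Units.val_mul, map_mul]

theorem trcEps_pow (p : ℕ) [Fact p.Prime] (n : ℕ) (g : Qb ≃ₐ[ℚ] Qb) (b : ℕ) :
    trcEps p n (g ^ b) = trcEps p n g ^ b := by
  unfold trcEps
  rw [map_pow, Units.val_pow_eq_pow_val, map_pow]

theorem trcEps_frobenius (p : ℕ) [Fact p.Prime] (n : ℕ) (ℓ : ℕ) (hℓ : ℓ.Prime) (hℓp : ℓ ≠ p)
    (A : ValuationSubring Qb) (hA : A.LiesOverPrime ℓ) (τ : Qb ≃ₐ[ℚ] Qb)
    (hτ : A.IsFrobeniusAt τ ℓ) : trcEps p n τ = (ℓ : ZMod (p ^ n)) := by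
  unfold trcEps
  rw [cya_frobenius p ℓ hℓ hℓp A hA τ hτ, map_natCast]

theorem trcEps_inertia (p : ℕ) [Fact p.Prime] (n : ℕ) (q : ℕ) (hq : q.Prime) (hqp : q ≠ p)
    (A : ValuationSubring Qb) (hA : A.LiesOverPrime q) (σ : Qb ≃ₐ[ℚ] Qb)
    (hσ : σ ∈ A.inertiaSubgroupIn ℚ) : trcEps p n σ = 1 := by
  unfold trcEps
  rw [cya_inertia p q hq hqp A hA σ hσ, Units.val_one, map_one]

theorem trcEps_congr (p : ℕ) [Fact p.Prime] (n : ℕ) (σ τ : Qb ≃ₐ[ℚ] Qb)
    (h : ∀ x ∈ cycField (p ^ n), σ x = τ x) : trcEps p n σ = trcEps p n τ :=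
  cya_congr_field p n σ τ h

/-- **Density.**  Every `g` agrees with a power of a Frobenius element at a prime `ℓ ∉ S`,
`ℓ ≠ p`, on a prescribed number field `L₀`, on `J₀(N)[p ^ n]` and on the `p ^ n`-th roots of
unity. -/
theorem trc_density (N : ℕ) [NeZero N] (p : ℕ) [Fact p.Prime] (n : ℕ)
    [Finite ↥(Pic0.torsion Qb (modularFunctionFieldBar N) (p ^ n))]
    (L₀ : IntermediateField ℚ Qb) [FiniteDimensional ℚ L₀] (S : Finset ℕ) (g : Qb ≃ₐ[ℚ] Qb) :
    ∃ ℓ : ℕ, ℓ.Prime ∧ ℓ ∉ S ∧ ℓ ≠ p ∧ ∃ A : ValuationSubring Qb, A.LiesOverPrime ℓ ∧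
      ∃ τ : Qb ≃ₐ[ℚ] Qb, A.IsFrobeniusAt τ ℓ ∧ ∃ b : ℕ, (∀ x ∈ L₀, (τ ^ b) x = g x) ∧
        JZero.torsionGaloisRep N (p ^ n) (τ ^ b) = JZero.torsionGaloisRep N (p ^ n) g ∧
        (ℓ : ZMod (p ^ n)) ^ b = trcEps p n g := by
  classical
  obtain ⟨LJ, hLJ, hLJ'⟩ := trc_torsion_field N (p ^ n)
  have := hLJ
  have := cya_field_finiteDimensional p n
  obtain ⟨ℓ, hℓ, hℓS, A, hA, τ, hτ, b, hb⟩ :=
    fd_main (L₀ ⊔ LJ ⊔ cycField (p ^ n)) (insert p S) g
  have hℓp : ℓ ≠ p := fun h => hℓS (h ▸ Finset.mem_insert_self _ S)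
  have hle1 : L₀ ≤ L₀ ⊔ LJ ⊔ cycField (p ^ n) := le_sup_left.trans le_sup_left
  have hle2 : LJ ≤ L₀ ⊔ LJ ⊔ cycField (p ^ n) := le_sup_right.trans le_sup_left
  have hle3 : cycField (p ^ n) ≤ L₀ ⊔ LJ ⊔ cycField (p ^ n) := le_sup_right
  refine ⟨ℓ, hℓ, fun h => hℓS (Finset.mem_insert_of_mem h), hℓp, A, hA, τ, hτ, b,
    fun x hx => hb x (hle1 hx), ?_, ?_⟩
  · exact trc_rep_eq_of_eqOn (JZero.torsionGaloisRep N (p ^ n)) LJ hLJ' g (τ ^ b)
      (fun x hx => hb x (hle2 hx))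
  · rw [← trcEps_frobenius p n ℓ hℓ hℓp A hA τ hτ, ← trcEps_pow]
    exact trcEps_congr p n _ _ (fun x hx => hb x (hle3 hx))

/-! ### The torsion of `J₀(N)` as a `ℤ`-module -/

/-- The `m`-torsion of `J₀(N)`. -/
abbrev TrcX (N m : ℕ) : Type := ↥(Pic0.torsion Qb (modularFunctionFieldBar N) m)

/-- The Galois action on the `m`-torsion, as `ℤ`-linear endomorphisms. -/
noncomputable def trcRhoJ (N m : ℕ) : (Qb ≃ₐ[ℚ] Qb) →* Module.End ℤ (TrcX N m) where
  toFun g := (JZero.torsionGaloisRep N m g).toAddMonoidHom.toIntLinearMap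
  map_one' := by
    refine LinearMap.ext fun x => ?_
    show JZero.torsionGaloisRep N m 1 x = x
    rw [map_one]; rfl
  map_mul' g h := by
    refine LinearMap.ext fun x => ?_
    show JZero.torsionGaloisRep N m (g * h) x
      = JZero.torsionGaloisRep N m g (JZero.torsionGaloisRep N m h x)
    rw [map_mul]; rfl

theorem trcRhoJ_apply (N m : ℕ) (g : Qb ≃ₐ[ℚ] Qb) (x : TrcX N m) :
    trcRhoJ N m g x = JZero.torsionGaloisRep N m g x := rfl

/-- The Hecke operators on the `m`-torsion, as `ℤ`-linear endomorphisms. -/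
noncomputable def trcTheta (N m : ℕ) [NeZero N] (S : Set ℕ) (l : HresIdx N S) :
    Module.End ℤ (TrcX N m) :=
  (trsHecke N m ⟨l.1, l.2.1⟩).toAddMonoidHom.toIntLinearMap

theorem trcTheta_apply (N m : ℕ) [NeZero N] (S : Set ℕ) (l : HresIdx N S) (x : TrcX N m) :
    trcTheta N m S l x = trsHecke N m ⟨l.1, l.2.1⟩ x := rfl

/-- Natural numbers congruent modulo `m` act in the same way on the `m`-torsion. -/
theorem trc_natCast_eq (N m : ℕ) (a b : ℕ) (h : (a : ZMod m) = (b : ZMod m)) :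
    ((a : ℕ) : Module.End ℤ (TrcX N m)) = ((b : ℕ) : Module.End ℤ (TrcX N m)) := by
  refine LinearMap.ext fun x => ?_
  rw [Module.End.natCast_apply, Module.End.natCast_apply, ← Nat.cast_smul_eq_nsmul (ZMod m) a x,
    ← Nat.cast_smul_eq_nsmul (ZMod m) b x, h]

/-- The scalar `e : ZMod m` as an endomorphism of the `m`-torsion. -/
noncomputable def trcScal (N m : ℕ) (e : ZMod m) : Module.End ℤ (TrcX N m) :=
  ((e.val : ℕ) : Module.End ℤ (TrcX N m))

theorem trc_natCast_pow (N m : ℕ) [NeZero m] (ℓ b : ℕ) (e : ZMod m)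
    (h : (ℓ : ZMod m) ^ b = e) :
    ((ℓ : ℕ) : Module.End ℤ (TrcX N m)) ^ b = trcScal N m e := by
  rw [← Nat.cast_pow]
  refine trc_natCast_eq N m _ _ ?_
  rw [Nat.cast_pow, h, ZMod.natCast_zmod_val]

/-- The Eichler–Shimura relation on the `m`-torsion, in `End_ℤ`. -/
theorem trc_frob_rel (N m : ℕ) [NeZero N] (S : Set ℕ) (l : HresIdx N S) (hlm : ¬ l.1 ∣ N * m)
    (A : ValuationSubring Qb) (hA : A.LiesOverPrime l.1) (τ : Qb ≃ₐ[ℚ] Qb)
    (hτ : A.IsFrobeniusAt τ l.1) :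
    trcRhoJ N m τ * trcRhoJ N m τ - trcTheta N m S l * trcRhoJ N m τ
      + ((l.1 : ℕ) : Module.End ℤ (TrcX N m)) = 0 := by
  refine LinearMap.ext fun x => ?_
  have h := LinearMap.congr_fun (trs_frobenius N m l.1 l.2.1 hlm A hA τ hτ) x
  simp only [LinearMap.add_apply, LinearMap.sub_apply, Module.End.mul_apply,
    LinearMap.smul_apply, Module.End.one_apply, LinearMap.zero_apply] at h
  rw [Nat.cast_smul_eq_nsmul] at h
  simp only [LinearMap.add_apply, LinearMap.sub_apply, Module.End.mul_apply,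
    LinearMap.zero_apply, Module.End.natCast_apply]
  exact h

/-- The Hecke operators commute with the Galois action on the `m`-torsion, in `End_ℤ`. -/
theorem trc_comm (N m : ℕ) [NeZero N] (S : Set ℕ) (l : HresIdx N S) (hlm : ¬ l.1 ∣ N * m)
    (τ : Qb ≃ₐ[ℚ] Qb) :
    trcTheta N m S l * trcRhoJ N m τ = trcRhoJ N m τ * trcTheta N m S l := by
  refine LinearMap.ext fun x => ?_
  exact LinearMap.congr_fun (trs_hecke_galois N m l.1 l.2.1 hlm τ) x

/-- Evaluation of a noncommutative polynomial commutes with ring homomorphisms. -/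
theorem trc_lift_comp {I : Type*} {A B : Type*} [Ring A] [Ring B] (φ : A →+* B) (f : I → A)
    (P : FreeAlgebra ℤ I) :
    FreeAlgebra.lift ℤ (fun i => φ (f i)) P = φ (FreeAlgebra.lift ℤ f P) := by
  have h : FreeAlgebra.lift ℤ (fun i => φ (f i))
      = (φ.toIntAlgHom).comp (FreeAlgebra.lift ℤ f) := by
    apply FreeAlgebra.hom_ext
    funext i
    simp
  rw [h]
  rfl

/-- a prime different from `p` and not dividing `N` does not divide `N * p ^ k` -/
theorem trc_not_dvd {N p ℓ : ℕ} (hp : p.Prime) (hℓ : ℓ.Prime) (hℓN : ¬ ℓ ∣ N) (hℓp : ℓ ≠ p)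
    (k : ℕ) : ¬ ℓ ∣ N * p ^ k := by
  intro h
  rcases hℓ.dvd_mul.mp h with h | h
  · exact hℓN h
  · exact hℓp ((Nat.prime_dvd_prime_iff_eq hℓ hp).mp (hℓ.dvd_of_dvd_pow h))

/-! ### The trace is unramified -/

/-- The comparison hypothesis at the moduli `p ^ n`: the `p ^ n`-torsion of `J₀(N)` is finite and
carries a Hecke-equivariant map to `Hom(Γ₀(N), ℤ/p ^ n)` whose range contains the homomorphisms
killing the elements of trace of absolute value at most `2`. -/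
def TrcCmp (N : ℕ) [NeZero N] (p : ℕ) : Prop :=
  ∀ n : ℕ, Finite (TrcX N (p ^ n)) ∧
    ∃ Φ : TrcX N (p ^ n) →+ (Additive (CongruenceSubgroup.Gamma0 N) →+ ZMod (p ^ n)),
      (∀ ψ : Additive (CongruenceSubgroup.Gamma0 N) →+ ZMod (p ^ n),
        (∀ s ∈ redS N, ψ s = 0) → ψ ∈ Set.range Φ) ∧
      ∀ (ℓ : ℕ) (hℓ : ℓ.Prime), ¬ ℓ ∣ N → ∀ c : TrcX N (p ^ n),
        Φ (trsHecke N (p ^ n) ⟨ℓ, hℓ⟩ c) = heckeTr N ℓ (ZMod (p ^ n)) (Φ c)

/-- Homomorphisms from a finitely generated group to a finite group form a finite set. -/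
theorem trc_hom_finite (G : Type*) [AddGroup G] [AddGroup.FG G] (A : Type*) [AddMonoid A]
    [Finite A] : Finite (G →+ A) := by
  obtain ⟨s, hs⟩ := (AddGroup.FG.out : (⊤ : AddSubgroup G).FG)
  exact Finite.of_injective (fun (ψ : G →+ A) (x : s) => ψ x)
    (fun ψ₁ ψ₂ h => AddMonoidHom.eq_of_eqOn_dense hs (fun x hx => congrFun h ⟨x, hx⟩))

/-- `TrcCmp` from a comparison map at every nonzero modulus (injective, Hecke-equivariant, with
range containing the homomorphisms killing the elements of trace at most `2`). -/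
theorem trc_cmp_of_gen (N : ℕ) [NeZero N] (p : ℕ) (hp : p ≠ 0)
    (h : ∀ m : ℕ, m ≠ 0 →
      ∃ Φ : TrcX N m →+ (Additive (CongruenceSubgroup.Gamma0 N) →+ ZMod m),
        Function.Injective Φ ∧
        (∀ ψ : Additive (CongruenceSubgroup.Gamma0 N) →+ ZMod m,
          (∀ s ∈ redS N, ψ s = 0) → ψ ∈ Set.range Φ) ∧
        ∀ (ℓ : ℕ) (hℓ : ℓ.Prime), ¬ ℓ ∣ N → ∀ c : TrcX N m,
          Φ (trsHecke N m ⟨ℓ, hℓ⟩ c) = heckeTr N ℓ (ZMod m) (Φ c)) :
    TrcCmp N p := by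
  intro n
  obtain ⟨Φ, hinj, hS, hT⟩ := h (p ^ n) (pow_ne_zero n hp)
  have : NeZero (p ^ n) := ⟨pow_ne_zero n hp⟩
  have : AddGroup.FG (Additive (CongruenceSubgroup.Gamma0 N)) := egr_gamma0_fg N
  have : Finite (Additive (CongruenceSubgroup.Gamma0 N) →+ ZMod (p ^ n)) := trc_hom_finite _ _
  exact ⟨Finite.of_injective Φ hinj, Φ, hS, hT⟩

section main

variable {p : ℕ} {N : ℕ} [NeZero N] {S : Finset ℕ}
  {𝒪 : Type} [CommRing 𝒪] [IsDomain 𝒪] [IsDiscreteValuationRing 𝒪]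
  [IsAdicComplete (IsLocalRing.maximalIdeal 𝒪) 𝒪]
  {θ : CuspForm.heckeAlgebra N 2 (↑S : Set ℕ) →+* IsLocalRing.ResidueField 𝒪}
  {T : Type} [CommRing T] [IsLocalRing T] [IsNoetherianRing T]
  [IsAdicComplete (IsLocalRing.maximalIdeal T) T] [Algebra 𝒪 T] [IsLocalHom (algebraMap 𝒪 T)]
  [Module.Finite 𝒪 T] [Module.Free 𝒪 T]

/-- **S31-TRACE.**  The trace of the Galois representation of a Hecke–Galois datum is invariant
under right multiplication by inertia at a prime `q ∉ S`. -/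
theorem trc_main (hp : p.Prime) (hp𝒪 : (p : 𝒪) ∈ IsLocalRing.maximalIdeal 𝒪) (hpS : p ∈ S)
    (hNS : ∀ q : ℕ, q.Prime → q ∣ N → q ∈ S)
    (H : CuspForm.HeckeGaloisRepDatum N (↑S : Set ℕ) 𝒪 θ T) (hcmp : TrcCmp N p)
    (q : ℕ) (hq : q.Prime) (hqS : q ∉ S) (A : ValuationSubring Qb) (hA : A.LiesOverPrime q)
    (σ : Qb ≃ₐ[ℚ] Qb) (hσ : σ ∈ A.inertiaSubgroupIn ℚ) (g : Qb ≃ₐ[ℚ] Qb) :
    LinearMap.trace T H.ρ.V (H.ρ.ρ (g * σ)) = LinearMap.trace T H.ρ.V (H.ρ.ρ g) := by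
  have : Fact p.Prime := ⟨hp⟩
  have hpT : (p : T) ∈ IsLocalRing.maximalIdeal T := by
    have h := map_nonunit (algebraMap 𝒪 T) (p : 𝒪) hp𝒪
    rwa [map_natCast] at h
  have hqN : ¬ q ∣ N := fun h => hqS (hNS q hq h)
  have hqp : q ≠ p := fun h => hqS (h ▸ hpS)
  apply tra_eq_of_local
  intro n
  obtain ⟨v, hv⟩ := hres_final N (↑S : Set ℕ) p
  obtain ⟨hfin, Φ, hΦS, hΦT⟩ := hcmp (n + v)
  have := hfin
  have : NeZero (p ^ (n + v)) := ⟨pow_ne_zero _ hp.ne_zero⟩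
  obtain ⟨L₀, hL₀, htr⟩ := trc_trace_congr H.ρ n
  have := hL₀
  refine tra_main (IsLocalRing.maximalIdeal T ^ n) H.ρ.finrank_eq H.ρ.ρ
    (trcRhoJ N (p ^ (n + v))) (fun g => trcScal N (p ^ (n + v)) (trcEps p (n + v) g))
    (fun l : HresIdx N (↑S : Set ℕ) => H.π (CuspForm.heckeAlgebra.T l.2.1 l.2.2.1 l.2.2.2))
    (trcTheta N (p ^ (n + v)) (↑S : Set ℕ)) (fun l => l.1) ?_ ?_ g σ ?_ ?_
  · -- density
    intro g
    obtain ⟨ℓ, hℓ, hℓS, hℓp, A', hA', τ, hτ, b, hb, hJ, hε⟩ :=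
      trc_density N p (n + v) L₀ S g
    have hℓN : ¬ ℓ ∣ N := fun h => hℓS (hNS ℓ hℓ h)
    have hℓS' : ℓ ∉ (↑S : Set ℕ) := fun h => hℓS (Finset.mem_coe.mp h)
    have hℓm : ¬ ℓ ∣ N * p ^ (n + v) := trc_not_dvd hp hℓ hℓN hℓp _
    refine ⟨τ, ⟨ℓ, hℓ, hℓN, hℓS'⟩, b, H.charpoly_frob ℓ hℓ hℓN hℓS' A' hA' τ hτ,
      trc_frob_rel N _ _ ⟨ℓ, hℓ, hℓN, hℓS'⟩ hℓm A' hA' τ hτ,
      trc_comm N _ _ ⟨ℓ, hℓ, hℓN, hℓS'⟩ hℓm τ, htr _ _ hb, ?_, ?_⟩
    · exact LinearMap.ext fun x => LinearMap.congr_fun hJ x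
    · exact trc_natCast_pow N _ ℓ b _ hε
  · -- HECKERES
    intro P hP
    obtain ⟨Q, hQ⟩ := hv (n + v) (Nat.le_add_left v n) (TrcX N (p ^ (n + v)))
      (trcTheta N (p ^ (n + v)) (↑S : Set ℕ)) Φ
      (fun l c => hΦT l.1 l.2.1 l.2.2.1 c) hΦS P (fun c => LinearMap.congr_fun hP c)
    have e1 := trc_lift_comp H.π
      (fun l : HresIdx N (↑S : Set ℕ) => CuspForm.heckeAlgebra.T l.2.1 l.2.2.1 l.2.2.2) P
    have e2 : FreeAlgebra.lift ℤ
        (fun l : HresIdx N (↑S : Set ℕ) => CuspForm.heckeAlgebra.T l.2.1 l.2.2.1 l.2.2.2) P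
        = hresT N (↑S : Set ℕ) P := rfl
    rw [e1, e2, hQ, Nat.add_sub_cancel, map_zsmul, zsmul_eq_mul]
    refine Ideal.mul_mem_right _ _ ?_
    push_cast
    exact Ideal.pow_mem_pow hpT n
  · -- inertia acts trivially on the torsion
    refine LinearMap.ext fun x => ?_
    exact LinearMap.congr_fun
      (trs_inertia N (p ^ (n + v)) q hq (trc_not_dvd hp hq hqN hqp _) A hA σ hσ) x
  · -- inertia acts trivially on the roots of unity
    show trcScal N (p ^ (n + v)) (trcEps p (n + v) (g * σ))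
      = trcScal N (p ^ (n + v)) (trcEps p (n + v) g)
    rw [trcEps_mul, trcEps_inertia p (n + v) q hq hqp A hA σ hσ, mul_one]

/-- **S31 from the comparison at the moduli `p ^ n`.** -/
theorem trc_unramified (hp : p.Prime) (hp𝒪 : (p : 𝒪) ∈ IsLocalRing.maximalIdeal 𝒪) (hpS : p ∈ S)
    (hNS : ∀ q : ℕ, q.Prime → q ∣ N → q ∈ S)
    (H : CuspForm.HeckeGaloisRepDatum N (↑S : Set ℕ) 𝒪 θ T) (hcmp : TrcCmp N p)
    (q : ℕ) (hq : q.Prime) (hqS : q ∉ S) : H.ρ.IsUnramifiedAt q := by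
  intro A hA σ hσ
  exact brn_main H.ρ H.residual_absIrr σ
    (fun g => trc_main hp hp𝒪 hpS hNS H hcmp q hq hqS A hA σ hσ g)

end main

end Fermat.Agent.S31
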