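import Mathlib
import Fermat.Prelude.Def_GaloisRep_Adic
import Fermat.Agent.S31.Burn
import Fermat.Agent.S31.TraceAbs

/-!
# S31, formal main step

`s31f_main`: for a `GaloisRepAdic` over a Noetherian local ring with absolutely irreducible
residual representation, an element `σ` acts trivially as soon as, for every `n`, the abstract
trace data of `tra_main` are available for the ideal `𝔪 ^ n` with `σ` acting trivially on the
auxiliary torsion group and on the cyclotomic values.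
-/

set_option autoImplicit false

namespace Fermat.Agent.S31

open Polynomial

/-- **Formal main step of S31.** -/
theorem s31f_main {T : Type} [CommRing T] [IsLocalRing T] [IsNoetherianRing T]
    (ρ : GaloisRepAdic T) (hirr : ρ.residual.IsAbsolutelyIrreducible)
    (σ : AlgebraicClosure ℚ ≃ₐ[ℚ] AlgebraicClosure ℚ)
    (h : ∀ n : ℕ, ∃ (E : Type) (_ : Ring E)
      (ρJ : (AlgebraicClosure ℚ ≃ₐ[ℚ] AlgebraicClosure ℚ) →* E)
      (ε : (AlgebraicClosure ℚ ≃ₐ[ℚ] AlgebraicClosure ℚ) → E)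
      (I : Type) (t : I → T) (θ : I → E) (ℓ : I → ℕ),
      (∀ g : AlgebraicClosure ℚ ≃ₐ[ℚ] AlgebraicClosure ℚ,
        ∃ (τ : AlgebraicClosure ℚ ≃ₐ[ℚ] AlgebraicClosure ℚ) (i : I) (m : ℕ),
          LinearMap.charpoly (ρ.ρ τ) = X ^ 2 - C (t i) * X + C ((ℓ i : ℕ) : T) ∧
          ρJ τ * ρJ τ - θ i * ρJ τ + ((ℓ i : ℕ) : E) = 0 ∧ θ i * ρJ τ = ρJ τ * θ i ∧
          LinearMap.trace T ρ.V (ρ.ρ (τ ^ m)) - LinearMap.trace T ρ.V (ρ.ρ g) ∈
            IsLocalRing.maximalIdeal T ^ n ∧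
          ρJ (τ ^ m) = ρJ g ∧ ((ℓ i : ℕ) : E) ^ m = ε g) ∧
      (∀ P : FreeAlgebra ℤ I, FreeAlgebra.lift ℤ θ P = 0 →
        FreeAlgebra.lift ℤ t P ∈ IsLocalRing.maximalIdeal T ^ n) ∧
      ρJ σ = 1 ∧ ∀ g, ε (g * σ) = ε g) :
    ρ.ρ σ = 1 := by
  refine brn_main ρ hirr σ fun g => tra_eq_of_local _ _ fun n => ?_
  obtain ⟨E, _, ρJ, ε, I, t, θ, ℓ, hD, hR, hσJ, hσε⟩ := h n
  exact tra_main (IsLocalRing.maximalIdeal T ^ n) ρ.finrank_eq ρ.ρ ρJ ε t θ ℓ hD hR g σ hσJ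
    (hσε g)

/-- The prime `p` lies in the maximal ideal of `T` when it does in `𝒪` and `𝒪 → T` is local. -/
theorem s31f_p_mem {𝒪 T : Type*} [CommRing 𝒪] [IsLocalRing 𝒪] [CommRing T] [IsLocalRing T]
    [Algebra 𝒪 T] [IsLocalHom (algebraMap 𝒪 T)] (p : ℕ)
    (hp : (p : 𝒪) ∈ IsLocalRing.maximalIdeal 𝒪) : (p : T) ∈ IsLocalRing.maximalIdeal T := by
  have h := map_nonunit (algebraMap 𝒪 T) (p : 𝒪) hp
  rwa [map_natCast] at h

/-- Multiples of `p ^ n` lie in the `n`-th power of the maximal ideal. -/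
theorem s31f_pow_mul_mem {T : Type*} [CommRing T] [IsLocalRing T] (p : ℕ)
    (hp : (p : T) ∈ IsLocalRing.maximalIdeal T) (n : ℕ) (x : T) :
    (p : T) ^ n * x ∈ IsLocalRing.maximalIdeal T ^ n :=
  Ideal.mul_mem_right _ _ (Ideal.pow_mem_pow hp n)

/-- Transport of a Hecke-transfer statement along a ring homomorphism `π : H → T`: if every
noncommutative polynomial vanishing at `θ` takes at `x : I → H` a value in `p ^ n • H`, then it
takes at `π ∘ x` a value in `𝔪_T ^ n`.  (`H` any ring, e.g. the Hecke algebra.) -/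
theorem s31f_hR {H T : Type*} [Ring H] [CommRing T] [IsLocalRing T] (π : H →+* T) (p : ℕ)
    (hp : (p : T) ∈ IsLocalRing.maximalIdeal T) (n : ℕ) {I E : Type*} [Ring E] (θ : I → E)
    (x : I → H)
    (hres : ∀ P : FreeAlgebra ℤ I, FreeAlgebra.lift ℤ θ P = 0 →
      ∃ y : H, FreeAlgebra.lift ℤ x P = (p : H) ^ n * y)
    (P : FreeAlgebra ℤ I) (hP : FreeAlgebra.lift ℤ θ P = 0) :
    FreeAlgebra.lift ℤ (fun i => π (x i)) P ∈ IsLocalRing.maximalIdeal T ^ n := by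
  obtain ⟨y, hy⟩ := hres P hP
  have e : FreeAlgebra.lift ℤ (fun i => π (x i)) P = π (FreeAlgebra.lift ℤ x P) := by
    have h1 : (FreeAlgebra.lift ℤ (fun i => π (x i)) : FreeAlgebra ℤ I →ₐ[ℤ] T) =
        (π.toIntAlgHom).comp (FreeAlgebra.lift ℤ x) := by
      apply FreeAlgebra.hom_ext
      funext i
      simp
    rw [h1]
    rfl
  rw [e, hy, map_mul, map_pow, map_natCast]
  exact s31f_pow_mul_mem p hp n _

end Fermat.Agent.S31
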