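import Mathlib
import Fermat.Prelude.Def_CuspForm_HeckeGaloisRepDatum
import Fermat.Agent.S29.TorsRep
import Fermat.Agent.S31.HeckeRes
import Fermat.Agent.S31.MainFormal

/-!
# S31, the Hecke transfer input in concrete form

`hri_gen`: there is `v` (depending on `N`, `S`, `p` only) such that for every `k ≥ v` and every
comparison datum `Φ : X → Hom(Γ₀(N), ℤ / p ^ k)` on a `ℤ / p ^ k`-module `X` with operators `θ`
(Hecke equivariant, with range containing the homomorphisms killing `redS N`), a noncommutative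
polynomial `P` in the Hecke operators at the good primes with `P(θ) = 0` takes at the Hecke
operators of the Hecke algebra a value divisible by `p ^ (k - v)`.

`hri_main`: the instance `X = J₀(N)[p ^ (n + v)]`, `θ = trsHecke`.

`hri_datum`: the same for a Hecke–Galois datum: the value of `P` at `H.π (T_ℓ)` lies in
`𝔪_T ^ n`.  This is the Hecke clause of `s31f_main`.
-/

set_option autoImplicit false

open CongruenceSubgroup CuspForm ModularCurve AlgebraicCurve
open scoped MatrixGroups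

namespace Fermat.Agent.S31

open Fermat.Agent.S29

local notation "Qb" => AlgebraicClosure ℚ

/-- Evaluating a noncommutative polynomial at linear endomorphisms over `ZMod m`, or at the
underlying additive endomorphisms, gives the same map. -/
theorem hri_lift_apply {N : ℕ} {S : Set ℕ} {m : ℕ} {X : Type*} [AddCommGroup X]
    [Module (ZMod m) X] (θ : HresIdx N S → Module.End (ZMod m) X)
    (P : FreeAlgebra ℤ (HresIdx N S)) :
    ∀ c : X, hresJ (fun l => (θ l).toAddMonoidHom.toIntLinearMap) P c =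
      FreeAlgebra.lift ℤ θ P c := by
  refine FreeAlgebra.induction ℤ (HresIdx N S) ?_ ?_ ?_ ?_ P
  · intro r c
    rw [AlgHom.commutes, AlgHom.commutes, Algebra.algebraMap_eq_smul_one,
      Algebra.algebraMap_eq_smul_one, LinearMap.smul_apply, LinearMap.smul_apply,
      Module.End.one_apply, Module.End.one_apply]
  · intro l c
    rw [hresJ_ι, FreeAlgebra.lift_ι_apply]
    rfl
  · intro a b ha hb c
    rw [map_mul, map_mul, Module.End.mul_apply, Module.End.mul_apply, hb, ha]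
  · intro a b ha hb c
    rw [map_add, map_add, LinearMap.add_apply, LinearMap.add_apply, ha, hb]

/-- **Hecke transfer for a comparison datum on a `ℤ / p ^ k`-module.** -/
theorem hri_gen (N : ℕ) [NeZero N] (S : Set ℕ) (p : ℕ) :
    ∃ v : ℕ, ∀ k : ℕ, v ≤ k → ∀ (X : Type) [AddCommGroup X] [Module (ZMod (p ^ k)) X]
      (θ : HresIdx N S → Module.End (ZMod (p ^ k)) X)
      (Φ : X →+ (Additive (Gamma0 N) →+ ZMod (p ^ k))),
      (∀ (l : HresIdx N S) (c : X), Φ (θ l c) = heckeTr N l.1 (ZMod (p ^ k)) (Φ c)) →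
      (∀ ψ : Additive (Gamma0 N) →+ ZMod (p ^ k), (∀ s ∈ redS N, ψ s = 0) →
        ψ ∈ Set.range Φ) →
      ∀ P : FreeAlgebra ℤ (HresIdx N S), FreeAlgebra.lift ℤ θ P = 0 →
        ∃ y : heckeAlgebra N 2 S, hresT N S P = (p : heckeAlgebra N 2 S) ^ (k - v) * y := by
  obtain ⟨v, hv⟩ := hres_final N S p
  refine ⟨v, fun k hk X _ _ θ Φ hΦT hΦS P hP => ?_⟩
  obtain ⟨Q, hQ⟩ := hv k hk X (fun l => (θ l).toAddMonoidHom.toIntLinearMap) Φ
    (fun l c => hΦT l c) hΦS P (fun c => by rw [hri_lift_apply, hP]; rfl)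
  refine ⟨hresT N S Q, ?_⟩
  rw [hQ, zsmul_eq_mul, Int.cast_pow, Int.cast_natCast]

set_option maxHeartbeats 1000000 in
/-- **Hecke transfer, concrete form**: for the torsion of `J₀(N)` with its Hecke operators. -/
theorem hri_main (N : ℕ) [NeZero N] (S : Set ℕ) (p : ℕ) :
    ∃ v : ℕ, ∀ n : ℕ,
      ∀ Φ : ↥(Pic0.torsion Qb (modularFunctionFieldBar N) (p ^ (n + v))) →+
        (Additive (Gamma0 N) →+ ZMod (p ^ (n + v))),
      (∀ (l : HresIdx N S) (c : ↥(Pic0.torsion Qb (modularFunctionFieldBar N) (p ^ (n + v)))),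
        Φ (trsHecke N (p ^ (n + v)) ⟨l.1, l.2.1⟩ c) =
          heckeTr N l.1 (ZMod (p ^ (n + v))) (Φ c)) →
      (∀ ψ : Additive (Gamma0 N) →+ ZMod (p ^ (n + v)), (∀ s ∈ redS N, ψ s = 0) →
        ψ ∈ Set.range Φ) →
      ∀ P : FreeAlgebra ℤ (HresIdx N S),
        FreeAlgebra.lift ℤ (fun l : HresIdx N S => trsHecke N (p ^ (n + v)) ⟨l.1, l.2.1⟩) P = 0 →
        ∃ y : heckeAlgebra N 2 S,
          FreeAlgebra.lift ℤ (fun l : HresIdx N S => heckeAlgebra.T l.2.1 l.2.2.1 l.2.2.2) P =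
            (p : heckeAlgebra N 2 S) ^ n * y := by
  obtain ⟨v, hv⟩ := hri_gen N S p
  refine ⟨v, fun n Φ hΦT hΦS P hP => ?_⟩
  have h := hv (n + v) (Nat.le_add_left v n)
    ↥(Pic0.torsion Qb (modularFunctionFieldBar N) (p ^ (n + v)))
    (fun l : HresIdx N S => trsHecke N (p ^ (n + v)) ⟨l.1, l.2.1⟩) Φ hΦT hΦS P hP
  rw [Nat.add_sub_cancel] at h
  exact h

section Datum

variable {p : ℕ} {N : ℕ} [NeZero N] {S : Finset ℕ}
  {𝒪 : Type} [CommRing 𝒪] [IsDomain 𝒪] [IsDiscreteValuationRing 𝒪]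
  [IsAdicComplete (IsLocalRing.maximalIdeal 𝒪) 𝒪]
  {θ : CuspForm.heckeAlgebra N 2 (↑S : Set ℕ) →+* IsLocalRing.ResidueField 𝒪}
  {T : Type} [CommRing T] [IsLocalRing T] [IsNoetherianRing T]
  [IsAdicComplete (IsLocalRing.maximalIdeal T) T] [Algebra 𝒪 T] [IsLocalHom (algebraMap 𝒪 T)]
  [Module.Finite 𝒪 T] [Module.Free 𝒪 T]

set_option maxHeartbeats 1000000 in
/-- **The Hecke clause of `s31f_main` for a Hecke–Galois datum.** -/
theorem hri_datum (H : CuspForm.HeckeGaloisRepDatum N (↑S : Set ℕ) 𝒪 θ T)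
    (hpT : (p : T) ∈ IsLocalRing.maximalIdeal T) :
    ∃ v : ℕ, ∀ n : ℕ,
      ∀ Φ : ↥(Pic0.torsion Qb (modularFunctionFieldBar N) (p ^ (n + v))) →+
        (Additive (Gamma0 N) →+ ZMod (p ^ (n + v))),
      (∀ (l : HresIdx N (↑S : Set ℕ))
        (c : ↥(Pic0.torsion Qb (modularFunctionFieldBar N) (p ^ (n + v)))),
        Φ (trsHecke N (p ^ (n + v)) ⟨l.1, l.2.1⟩ c) =
          heckeTr N l.1 (ZMod (p ^ (n + v))) (Φ c)) →
      (∀ ψ : Additive (Gamma0 N) →+ ZMod (p ^ (n + v)), (∀ s ∈ redS N, ψ s = 0) →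
        ψ ∈ Set.range Φ) →
      ∀ P : FreeAlgebra ℤ (HresIdx N (↑S : Set ℕ)),
        FreeAlgebra.lift ℤ
          (fun l : HresIdx N (↑S : Set ℕ) => trsHecke N (p ^ (n + v)) ⟨l.1, l.2.1⟩) P = 0 →
        FreeAlgebra.lift ℤ
          (fun l : HresIdx N (↑S : Set ℕ) => H.π (heckeAlgebra.T l.2.1 l.2.2.1 l.2.2.2)) P ∈
            IsLocalRing.maximalIdeal T ^ n := by
  obtain ⟨v, hv⟩ := hri_main N (↑S : Set ℕ) p
  exact ⟨v, fun n Φ hΦT hΦS P hP =>
    s31f_hR H.π p hpT n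
      (fun l : HresIdx N (↑S : Set ℕ) => trsHecke N (p ^ (n + v)) ⟨l.1, l.2.1⟩)
      (fun l : HresIdx N (↑S : Set ℕ) => heckeAlgebra.T l.2.1 l.2.2.1 l.2.2.2)
      (fun P hP => hv n Φ hΦT hΦS P hP) P hP⟩

end Datum

end Fermat.Agent.S31
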