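/-
Stage 3c (S31), package HECKERES, consumer seam: the hypothesis `(R)` of `tra_main`
(S31/TraceAbs.lean) from a comparison datum at the modulus `p ^ n`.
-/
import Mathlib
import Fermat.Agent.S29.TorsRep
import Fermat.Agent.S31.HeckeRes

set_option autoImplicit false

open CongruenceSubgroup CuspForm ModularCurve AlgebraicCurve
open scoped MatrixGroups

namespace Fermat.Agent.S31

open Fermat.Agent.S29

/-- a ring homomorphism out of the Hecke algebra, applied to `P(T)` -/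
theorem hres_lift_pi (N : ℕ) [NeZero N] (S : Set ℕ) {T : Type*} [CommRing T]
    (π : heckeAlgebra N 2 S →+* T) (P : FreeAlgebra ℤ (HresIdx N S)) :
    FreeAlgebra.lift ℤ (fun i : HresIdx N S => π (heckeAlgebra.T i.2.1 i.2.2.1 i.2.2.2)) P
      = π (hresT N S P) := by
  have h : FreeAlgebra.lift ℤ (fun i : HresIdx N S => π (heckeAlgebra.T i.2.1 i.2.2.1 i.2.2.2))
      = (π.toIntAlgHom).comp (hresT N S) := by
    apply FreeAlgebra.hom_ext
    funext i
    simp [hresT]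
  rw [h]
  rfl

/-- evaluation at endomorphisms over `ZMod m` versus their restrictions of scalars to `ℤ` -/
theorem hres_lift_restrict {N : ℕ} {S : Set ℕ} {m : ℕ} {X : Type*} [AddCommGroup X]
    [Module (ZMod m) X] (θ : HresIdx N S → Module.End (ZMod m) X)
    (P : FreeAlgebra ℤ (HresIdx N S)) :
    ∀ c : X, hresJ (fun i => (θ i).restrictScalars ℤ) P c = (FreeAlgebra.lift ℤ θ P) c := by
  refine FreeAlgebra.induction ℤ (HresIdx N S) ?_ ?_ ?_ ?_ P
  · intro r c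
    rw [AlgHom.commutes, AlgHom.commutes, Algebra.algebraMap_eq_smul_one,
      Algebra.algebraMap_eq_smul_one, LinearMap.smul_apply, LinearMap.smul_apply,
      Module.End.one_apply, Module.End.one_apply]
  · intro i c
    rw [hresJ_ι, FreeAlgebra.lift_ι_apply]
    rfl
  · intro a b ha hb c
    rw [map_mul, map_mul, Module.End.mul_apply, Module.End.mul_apply, hb, ha]
  · intro a b ha hb c
    rw [map_add, map_add, LinearMap.add_apply, LinearMap.add_apply, ha, hb]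

/-- **HECKERES in the shape of hypothesis `(R)` of `tra_main`**, for an abstract comparison
datum at the modulus `p ^ n`. -/
theorem hres_hR (N : ℕ) [NeZero N] (S : Set ℕ) (p : ℕ) :
    ∃ v : ℕ, ∀ n : ℕ, v ≤ n →
      ∀ (X : Type) [AddCommGroup X] [Module (ZMod (p ^ n)) X]
        (θ : HresIdx N S → Module.End (ZMod (p ^ n)) X)
        (Φ : X →+ (Additive (Gamma0 N) →+ ZMod (p ^ n))),
        (∀ l c, Φ (θ l c) = heckeTr N l.1 (ZMod (p ^ n)) (Φ c)) →
        (∀ ψ : Additive (Gamma0 N) →+ ZMod (p ^ n), (∀ s ∈ redS N, ψ s = 0) →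
          ψ ∈ Set.range Φ) →
        ∀ {T : Type*} [CommRing T] (π : heckeAlgebra N 2 S →+* T) (𝔞 : Ideal T),
          (p : T) ^ (n - v) ∈ 𝔞 →
        ∀ P : FreeAlgebra ℤ (HresIdx N S), FreeAlgebra.lift ℤ θ P = 0 →
          FreeAlgebra.lift ℤ
            (fun i : HresIdx N S => π (heckeAlgebra.T i.2.1 i.2.2.1 i.2.2.2)) P ∈ 𝔞 := by
  obtain ⟨v, hv⟩ := hres_final N S p
  refine ⟨v, fun n hn X _ _ θ Φ hΦT hΦS T _ π 𝔞 h𝔞 P hP => ?_⟩
  obtain ⟨Q, hQ⟩ := hv n hn X (fun i => (θ i).restrictScalars ℤ) Φ hΦT hΦS P (fun c => by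
    rw [hres_lift_restrict θ P c, hP, LinearMap.zero_apply])
  rw [hres_lift_pi, hQ, map_zsmul, zsmul_eq_mul]
  have h1 : (((p : ℤ) ^ (n - v) : ℤ) : T) = (p : T) ^ (n - v) := by push_cast; rfl
  rw [h1]
  exact 𝔞.mul_mem_right _ h𝔞

/-- **HECKERES for the torsion of `J₀(N)`**: hypothesis `(R)` of `tra_main` with
`E := Module.End (ZMod (p ^ n)) J₀(N)[p ^ n]`, `θ l := trsHecke N (p ^ n) l`,
`t l := π (heckeAlgebra.T l)`, from a comparison map at the modulus `p ^ n`. -/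
theorem hres_hR_tors (N : ℕ) [NeZero N] (S : Set ℕ) (p : ℕ) :
    ∃ v : ℕ, ∀ n : ℕ, v ≤ n →
      ∀ (Φ : ↥(Pic0.torsion (AlgebraicClosure ℚ) (modularFunctionFieldBar N) (p ^ n)) →+
          (Additive (Gamma0 N) →+ ZMod (p ^ n))),
        (∀ (ℓ : ℕ) (hℓ : ℓ.Prime), ¬ ℓ ∣ N → ∀ c,
          Φ (trsHecke N (p ^ n) ⟨ℓ, hℓ⟩ c) = heckeTr N ℓ (ZMod (p ^ n)) (Φ c)) →
        (∀ ψ : Additive (Gamma0 N) →+ ZMod (p ^ n), (∀ s ∈ redS N, ψ s = 0) →
          ψ ∈ Set.range Φ) →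
        ∀ {T : Type*} [CommRing T] (π : heckeAlgebra N 2 S →+* T) (𝔞 : Ideal T),
          (p : T) ^ (n - v) ∈ 𝔞 →
        ∀ P : FreeAlgebra ℤ (HresIdx N S),
          FreeAlgebra.lift ℤ (fun i : HresIdx N S => trsHecke N (p ^ n) ⟨i.1, i.2.1⟩) P = 0 →
          FreeAlgebra.lift ℤ
            (fun i : HresIdx N S => π (heckeAlgebra.T i.2.1 i.2.2.1 i.2.2.2)) P ∈ 𝔞 := by
  obtain ⟨v, hv⟩ := hres_hR N S p
  refine ⟨v, fun n hn Φ hΦT hΦS T _ π 𝔞 h𝔞 P hP => ?_⟩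
  exact hv n hn _ (fun i : HresIdx N S => trsHecke N (p ^ n) ⟨i.1, i.2.1⟩) Φ
    (fun l c => hΦT l.1 l.2.1 l.2.2.1 c) hΦS π 𝔞 h𝔞 P hP

end Fermat.Agent.S31
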