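import Mathlib

/-!
# S31: traces of congruent endomorphisms

For a finite free module `V` over a commutative ring `T` and an ideal `𝔞`:
* `tcg_trace_mem`: an endomorphism with image in `𝔞 • ⊤` has trace in `𝔞`;
* `tcg_trace_sub_mem`: two endomorphisms congruent modulo `𝔞 • ⊤` have congruent traces;
* `tcg_rep`: in a representation, if `ρ (a⁻¹ * b)` is congruent to the identity modulo `𝔞 • ⊤`
  then `trace ρ b - trace ρ a ∈ 𝔞` (the shape produced by adic continuity).
-/

set_option autoImplicit false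

namespace Fermat.Agent.S31

variable {T : Type*} [CommRing T] (𝔞 : Ideal T) {V : Type*} [AddCommGroup V] [Module T V]

/-- Coordinates of an element of `𝔞 • ⊤` with respect to a basis lie in `𝔞`. -/
theorem tcg_repr_mem {ι : Type*} (b : Module.Basis ι T V) {x : V}
    (hx : x ∈ 𝔞 • (⊤ : Submodule T V)) (i : ι) : b.repr x i ∈ 𝔞 := by
  refine Submodule.smul_induction_on hx ?_ ?_
  · intro r hr v _
    rw [map_smul, Finsupp.smul_apply, smul_eq_mul]
    exact 𝔞.mul_mem_right _ hr
  · intro x y hx hy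
    rw [map_add, Finsupp.add_apply]
    exact 𝔞.add_mem hx hy

variable [Module.Free T V] [Module.Finite T V]

/-- An endomorphism of a finite free module with image in `𝔞 • ⊤` has trace in `𝔞`. -/
theorem tcg_trace_mem (f : Module.End T V) (h : ∀ v, f v ∈ 𝔞 • (⊤ : Submodule T V)) :
    LinearMap.trace T V f ∈ 𝔞 := by
  classical
  let b := Module.Free.chooseBasis T V
  rw [LinearMap.trace_eq_matrix_trace T b f, Matrix.trace]
  refine 𝔞.sum_mem fun i _ => ?_
  rw [Matrix.diag_apply, LinearMap.toMatrix_apply]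
  exact tcg_repr_mem 𝔞 b (h (b i)) i

/-- Endomorphisms congruent modulo `𝔞 • ⊤` have traces congruent modulo `𝔞`. -/
theorem tcg_trace_sub_mem (f g : Module.End T V)
    (h : ∀ v, f v - g v ∈ 𝔞 • (⊤ : Submodule T V)) :
    LinearMap.trace T V f - LinearMap.trace T V g ∈ 𝔞 := by
  rw [← map_sub]
  exact tcg_trace_mem 𝔞 (f - g) (fun v => by rw [LinearMap.sub_apply]; exact h v)

omit [Module.Free T V] [Module.Finite T V] in
/-- A linear map preserves `𝔞 • ⊤`. -/
theorem tcg_map_mem (f : Module.End T V) {x : V} (hx : x ∈ 𝔞 • (⊤ : Submodule T V)) :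
    f x ∈ 𝔞 • (⊤ : Submodule T V) := by
  refine Submodule.smul_induction_on hx ?_ ?_
  · intro r hr v _
    rw [map_smul]
    exact Submodule.smul_mem_smul hr Submodule.mem_top
  · intro x y hx hy
    rw [map_add]
    exact Submodule.add_mem _ hx hy

/-- In a representation on a finite free module: if `ρ (a⁻¹ * b)` is the identity modulo
`𝔞 • ⊤`, then the traces of `ρ b` and `ρ a` are congruent modulo `𝔞`. -/
theorem tcg_rep {G : Type*} [Group G] (ρ : G →* Module.End T V) (a b : G)
    (h : ∀ v, ρ (a⁻¹ * b) v - v ∈ 𝔞 • (⊤ : Submodule T V)) :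
    LinearMap.trace T V (ρ b) - LinearMap.trace T V (ρ a) ∈ 𝔞 := by
  refine tcg_trace_sub_mem 𝔞 (ρ b) (ρ a) fun v => ?_
  have e : ρ b v - ρ a v = ρ a (ρ (a⁻¹ * b) v - v) := by
    rw [map_sub, ← Module.End.mul_apply, ← map_mul, mul_inv_cancel_left]
  rw [e]
  exact tcg_map_mem 𝔞 (ρ a) (h v)

end Fermat.Agent.S31
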